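import Fermat.Agent.JPic.LDFin

/-!
# Finiteness of the cohomology of line data, II
-/

set_option autoImplicit false

universe u

open TensorProduct

namespace Fermat.Agent.JPic

open Fermat.Agent.JPC

variable {k : Type u} [Field k] {X : TwoChart k} {B : Type u} [CommRing B] [Algebra k B]
  (L : PreLD X B)

theorem exists_finset_H1 (X : TwoChart k) (m : ℤ) : ∃ T : Finset X.A, ∀ a : X.A,
    ∃ u ∈ X.A0, ∃ v ∈ tA1 X m, ∃ w ∈ Submodule.span k (T : Set X.A), a = u + v + w := by
  classical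
  set S : Submodule k X.A := Subalgebra.toSubmodule X.A0 ⊔ tA1 X m with hS
  haveI := H1_finite X m
  obtain ⟨s, hs⟩ := (Module.Finite.fg_top : (⊤ : Submodule k (X.A ⧸ S)).FG)
  let σ : X.A ⧸ S → X.A := Function.surjInv (Submodule.mkQ_surjective S)
  have hσ : ∀ y, S.mkQ (σ y) = y := Function.surjInv_eq (Submodule.mkQ_surjective S)
  refine ⟨s.image σ, fun a => ?_⟩
  have h1 : S.mkQ a ∈ (Submodule.span k ((s.image σ : Finset X.A) : Set X.A)).map S.mkQ := by
    rw [Submodule.map_span, Finset.coe_image, ← Set.image_comp]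
    have : (S.mkQ ∘ σ) '' (s : Set (X.A ⧸ S)) = s := by
      have h2 : (S.mkQ ∘ σ) = id := funext hσ
      rw [h2, Set.image_id]
    rw [this, hs]
    trivial
  obtain ⟨w, hw, hwa⟩ := h1
  have h2 : a - w ∈ S := by
    have : S.mkQ (a - w) = 0 := by rw [map_sub, hwa, sub_self]
    rwa [Submodule.mkQ_apply, Submodule.Quotient.mk_eq_zero] at this
  obtain ⟨u, hu, v, hv, huv⟩ := Submodule.mem_sup.1 h2
  exact ⟨u, hu, v, hv, w, hw, by rw [huv]; abel⟩

theorem single_incl {n : ℕ} (A0 : Subalgebra k X.A) (i l : Fin n) : ∃ s0 : B ⊗[k] A0,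
    (Pi.single i (1 : B ⊗[k] X.A) : Fin n → B ⊗[k] X.A) l = incl B A0 s0 := by
  by_cases h : l = i
  · subst h
    exact ⟨1, by rw [Pi.single_eq_same, map_one]⟩
  · exact ⟨0, by rw [Pi.single_eq_of_ne h, map_zero]⟩

/-- `q s = ∑ s i • q (single i 1)` -/
theorem q_eq_sum {S M : Type*} [CommRing S] [AddCommGroup M] [Module S M] {n : ℕ}
    (q : (Fin n → S) →ₗ[S] M) (s : Fin n → S) :
    q s = ∑ i, s i • q (Pi.single i 1) := by
  conv_lhs => rw [← Finset.univ_sum_single s, map_sum]
  refine Finset.sum_congr rfl fun i _ => ?_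
  rw [← map_smul]
  congr 1
  ext l
  by_cases h : l = i
  · subst h; simp
  · simp [Pi.single_eq_of_ne h]

/-- **the first cohomology `M / (M0 + M1)` is a finite `B`-module** -/
theorem finite_coker (hL : L.IsLine) : Module.Finite B (L.M ⧸ (L.M0 ⊔ L.M1)) := by
  classical
  obtain ⟨n, j, q, hqj, -, hq⟩ := exists_dual0 L hL
  let x : Fin n → L.M := fun i => q (Pi.single i 1)
  have hx : ∀ i, x i ∈ L.M0 := fun i => hq _ fun l => single_incl X.A0 i l
  obtain ⟨N, hN⟩ := L.exFin1 (Finset.univ.image x)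
  have hN' : ∀ i, (((X.t⁻¹ : X.Aˣ) : X.A) ^ N) • x i ∈ L.M1 := fun i =>
    hN _ (Finset.mem_image_of_mem _ (Finset.mem_univ i))
  obtain ⟨T, hT⟩ := exists_finset_H1 X (-(N : ℤ))
  let F : Finset L.M := (T ×ˢ (Finset.univ : Finset (Fin n))).image fun p => p.1 • x p.2
  -- the key inclusion
  have key : ∀ (a : X.A) (i : Fin n), a • x i ∈ L.M0 ⊔ L.M1 ⊔ Submodule.span B (F : Set L.M) := by
    intro a i
    obtain ⟨u, hu, v, hv, w, hw, rfl⟩ := hT a
    rw [add_smul, add_smul]
    refine Submodule.add_mem_sup (Submodule.add_mem_sup ?_ ?_) ?_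
    · exact L.smul0 u hu _ (hx i)
    · rw [mem_tA1, neg_neg, zpow_natCast, Units.val_pow_eq_pow_val] at hv
      have h1 : v • x i = ((X.t : X.A) ^ N * v) • ((((X.t⁻¹ : X.Aˣ) : X.A) ^ N) • x i) := by
        rw [← mul_smul]
        congr 1
        have : (X.t : X.A) ^ N * ((X.t⁻¹ : X.Aˣ) : X.A) ^ N = 1 := by
          rw [← mul_pow, Units.mul_inv, one_pow]
        calc v = v * ((X.t : X.A) ^ N * ((X.t⁻¹ : X.Aˣ) : X.A) ^ N) := by rw [this, mul_one]
          _ = _ := by ring
      rw [h1]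
      exact L.smul1 _ hv _ (hN' i)
    · clear hu hv
      induction hw using Submodule.span_induction with
      | mem w hw =>
        refine Submodule.subset_span ?_
        rw [Finset.mem_coe, Finset.mem_image]
        exact ⟨(w, i), Finset.mem_product.2 ⟨hw, Finset.mem_univ i⟩, rfl⟩
      | zero => rw [zero_smul]; exact Submodule.zero_mem _
      | add y z _ _ hy hz => rw [add_smul]; exact Submodule.add_mem _ hy hz
      | smul c y _ hy =>
        rw [smul_assoc, ← algebraMap_smul B]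
        exact Submodule.smul_mem _ _ hy
  have hall : ∀ m : L.M, m ∈ L.M0 ⊔ L.M1 ⊔ Submodule.span B (F : Set L.M) := by
    intro m
    rw [← hqj m, q_eq_sum q (j m)]
    refine Submodule.sum_mem _ fun i _ => ?_
    generalize j m i = z
    show z • x i ∈ _
    induction z using TensorProduct.induction_on with
    | zero => rw [zero_smul]; exact Submodule.zero_mem _
    | tmul b a =>
      rw [PreLD.tmul_smul]
      exact Submodule.smul_mem _ _ (key a i)
    | add y z hy hz => rw [add_smul]; exact Submodule.add_mem _ hy hz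
  refine ⟨⟨F.image (L.M0 ⊔ L.M1).mkQ, ?_⟩⟩
  rw [Finset.coe_image, ← Submodule.map_span, eq_top_iff]
  intro y _
  obtain ⟨m, rfl⟩ := Submodule.mkQ_surjective (L.M0 ⊔ L.M1) y
  obtain ⟨u, hu, v, hv, rfl⟩ := Submodule.mem_sup.1 (hall m)
  refine ⟨v, hv, ?_⟩
  rw [map_add]
  have : (L.M0 ⊔ L.M1).mkQ u = 0 := (Submodule.Quotient.mk_eq_zero _).2 hu
  rw [this, zero_add]

/-! ### `H⁰` -/

section inter

variable {V : Type*} [AddCommGroup V] [Module k V]

/-- base change to a flat algebra commutes with intersections -/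
theorem inf_baseChange_le (B : Type*) [CommRing B] [Algebra k B] (P Q : Submodule k V) :
    P.baseChange B ⊓ Q.baseChange B ≤ (P ⊓ Q).baseChange B := by
  rintro z ⟨hzP, hzQ⟩
  have h0 : z ∈ LinearMap.range (P.subtype.baseChange B) := by
    rw [range_subtype_baseChange]; exact hzP
  obtain ⟨w, rfl⟩ := h0
  have h1 : ∀ y ∈ Q.baseChange B, (Q.mkQ.baseChange B) y = 0 := by
    intro y hy
    rw [Submodule.baseChange_eq_span] at hy
    induction hy using Submodule.span_induction with
    | mem x hx =>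
      obtain ⟨v, hv, rfl⟩ := hx
      have : Q.mkQ v = 0 := (Submodule.Quotient.mk_eq_zero Q).2 hv
      rw [TensorProduct.mk_apply, LinearMap.baseChange_tmul, this, TensorProduct.tmul_zero]
    | zero => rw [map_zero]
    | add x y _ _ hx hy => rw [map_add, hx, hy, add_zero]
    | smul a x _ hx => rw [map_smul, hx, smul_zero]
  have h2 : ((Q.mkQ ∘ₗ P.subtype).baseChange B) w = 0 := by
    rw [LinearMap.baseChange_comp]
    exact h1 _ hzQ
  have h3 : w ∈ (LinearMap.ker (Q.mkQ ∘ₗ P.subtype)).baseChange B :=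
    ker_baseChange_flat_le (Q.mkQ ∘ₗ P.subtype) _ le_rfl B h2
  rw [Submodule.baseChange_eq_span] at h3
  clear h2 hzP hzQ
  induction h3 using Submodule.span_induction with
  | mem x hx =>
    obtain ⟨v, hv, rfl⟩ := hx
    rw [TensorProduct.mk_apply, LinearMap.baseChange_tmul]
    refine Submodule.tmul_mem_baseChange_of_mem _ ⟨v.2, ?_⟩
    have h4 : Q.mkQ (v : V) = 0 := hv
    exact (Submodule.Quotient.mk_eq_zero Q).1 h4
  | zero => rw [map_zero]; exact Submodule.zero_mem _
  | add x y _ _ hx hy => rw [map_add]; exact Submodule.add_mem _ hx hy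
  | smul a x _ hx => rw [map_smul]; exact Submodule.smul_mem _ _ hx

end inter

theorem incl_mem (A0 : Subalgebra k X.A) (s : B ⊗[k] A0) :
    incl B A0 s ∈ (Subalgebra.toSubmodule A0).baseChange B := by
  induction s using TensorProduct.induction_on with
  | zero => rw [map_zero]; exact Submodule.zero_mem _
  | tmul b a => exact Submodule.tmul_mem_baseChange_of_mem _ a.2
  | add u v hu hv => rw [map_add]; exact Submodule.add_mem _ hu hv

theorem mem_incl (A0 : Subalgebra k X.A) (z : B ⊗[k] X.A)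
    (hz : z ∈ (Subalgebra.toSubmodule A0).baseChange B) : ∃ s, z = incl B A0 s := by
  rw [Submodule.baseChange_eq_span] at hz
  induction hz using Submodule.span_induction with
  | mem x hx =>
    obtain ⟨v, hv, rfl⟩ := hx
    exact ⟨1 ⊗ₜ ⟨v, hv⟩, rfl⟩
  | zero => exact ⟨0, (map_zero _).symm⟩
  | add x y _ _ hx hy =>
    obtain ⟨s, rfl⟩ := hx
    obtain ⟨r, rfl⟩ := hy
    exact ⟨s + r, (map_add _ _ _).symm⟩
  | smul a x _ hx =>
    obtain ⟨s, rfl⟩ := hx
    exact ⟨a • s, (map_smul _ _ _).symm⟩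

theorem incl_mul_mem (N : ℤ) (s : B ⊗[k] X.A1) (z : B ⊗[k] X.A) (hz : z ∈ (tA1 X N).baseChange B) :
    incl B X.A1 s * z ∈ (tA1 X N).baseChange B := by
  rw [Submodule.baseChange_eq_span] at hz
  induction hz using Submodule.span_induction with
  | mem x hx =>
    obtain ⟨v, hv, rfl⟩ := hx
    induction s using TensorProduct.induction_on with
    | zero => rw [map_zero, zero_mul]; exact Submodule.zero_mem _
    | tmul b a =>
      rw [incl_tmul, TensorProduct.mk_apply, Algebra.TensorProduct.tmul_mul_tmul]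
      refine Submodule.tmul_mem_baseChange_of_mem _ ?_
      have hv' : v ∈ tA1 X N := hv
      rw [mem_tA1] at hv' ⊢
      rw [mul_left_comm]
      exact X.A1.mul_mem a.2 hv'
    | add u v hu hv => rw [map_add, add_mul]; exact Submodule.add_mem _ hu hv
  | zero => rw [mul_zero]; exact Submodule.zero_mem _
  | add x y _ _ hx hy => rw [mul_add]; exact Submodule.add_mem _ hx hy
  | smul a x _ hx => rw [mul_smul_comm]; exact Submodule.smul_mem _ _ hx

theorem baseChange_mono' {V : Type*} [AddCommGroup V] [Module k V] (P Q : Submodule k V)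
    (h : P ≤ Q) : P.baseChange B ≤ Q.baseChange B := by
  rw [Submodule.baseChange_eq_span, Submodule.baseChange_eq_span]
  exact Submodule.span_mono (Submodule.map_mono h)

theorem exists_mem_tA1_bc (z : B ⊗[k] X.A) : ∃ N : ℕ, z ∈ (tA1 X N).baseChange B := by
  induction z using TensorProduct.induction_on with
  | zero => exact ⟨0, Submodule.zero_mem _⟩
  | tmul b a =>
    obtain ⟨N, hN⟩ := exists_mem_tA1 X a
    exact ⟨N, Submodule.tmul_mem_baseChange_of_mem _ hN⟩
  | add u v hu hv =>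
    obtain ⟨N, hN⟩ := hu
    obtain ⟨N', hN'⟩ := hv
    refine ⟨max N N', Submodule.add_mem _ ?_ ?_⟩
    · exact baseChange_mono' _ _ (tA1_mono X (by exact_mod_cast le_max_left N N')) hN
    · exact baseChange_mono' _ _ (tA1_mono X (by exact_mod_cast le_max_right N N')) hN'

/-- **`M0 ∩ M1` is contained in a finitely generated `B`-submodule** -/
theorem exists_fg_H0 (hL : L.IsLine) : ∃ G : Submodule B L.M, G.FG ∧ L.M0 ⊓ L.M1 ≤ G := by
  classical
  obtain ⟨n, j, q, hqj, hj, -⟩ := exists_dual0 L hL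
  obtain ⟨n1, j1, q1, hqj1, hj1, -⟩ := exists_dual1 L hL
  let y : Fin n1 → L.M := fun l => q1 (Pi.single l 1)
  have hN : ∃ N : ℕ, ∀ (l : Fin n1) (i : Fin n), j (y l) i ∈ (tA1 X N).baseChange B := by
    choose N hN using fun (p : Fin n1 × Fin n) => exists_mem_tA1_bc (j (y p.1) p.2)
    refine ⟨Finset.univ.sup N, fun l i => baseChange_mono' _ _ (tA1_mono X ?_) (hN (l, i))⟩
    exact_mod_cast Finset.le_sup (f := N) (Finset.mem_univ (l, i))
  obtain ⟨N, hN⟩ := hN
  let H : Submodule B (B ⊗[k] X.A) := (Subalgebra.toSubmodule X.A0 ⊓ tA1 X N).baseChange B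
  have hH : H.FG := fg_baseChange _ (H0_fg X N) B
  refine ⟨(Submodule.pi Set.univ fun _ : Fin n => H).map (q.restrictScalars B),
    (Submodule.fg_pi fun _ => hH).map _, ?_⟩
  rintro x ⟨hx0, hx1⟩
  refine ⟨j x, ?_, hqj x⟩
  intro i _
  apply inf_baseChange_le
  refine ⟨?_, ?_⟩
  · obtain ⟨s, hs⟩ := hj x hx0 i
    rw [hs]
    exact incl_mem X.A0 s
  · have h1 : j x i = ∑ l, j1 x l * j (y l) i := by
      conv_lhs => rw [← hqj1 x, q_eq_sum q1 (j1 x), map_sum, Finset.sum_apply]
      refine Finset.sum_congr rfl fun l _ => ?_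
      rw [map_smul, Pi.smul_apply, smul_eq_mul]
    rw [h1]
    refine Submodule.sum_mem _ fun l _ => ?_
    obtain ⟨s, hs⟩ := hj1 x hx1 l
    rw [hs]
    exact incl_mul_mem N s _ (hN l i)

end Fermat.Agent.JPic
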