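import Fermat.Agent.JPic.OpenBij2

/-!
# Complementary submodules and base change
-/

set_option autoImplicit false

open TensorProduct

namespace Fermat.Agent.JPic

variable {B M : Type*} [CommRing B] [AddCommGroup M] [Module B M]

/-- `P × Q → M` -/
def addMap (P Q : Submodule B M) : (P × Q) →ₗ[B] M := P.subtype.coprod Q.subtype

@[simp] theorem addMap_apply (P Q : Submodule B M) (x : P × Q) : addMap P Q x = (x.1 : M) + x.2 := rfl

theorem range_addMap (P Q : Submodule B M) : LinearMap.range (addMap P Q) = P ⊔ Q := by
  rw [addMap, LinearMap.range_coprod, Submodule.range_subtype, Submodule.range_subtype]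

theorem isCompl_range_iff {X Y : Type*} [AddCommGroup X] [Module B X] [AddCommGroup Y] [Module B Y]
    (f : X →ₗ[B] M) (g : Y →ₗ[B] M) (hf : Function.Injective f) (hg : Function.Injective g) :
    IsCompl (LinearMap.range f) (LinearMap.range g) ↔ Function.Bijective (f.coprod g) := by
  constructor
  · intro h
    constructor
    · rw [injective_iff_map_eq_zero]
      rintro ⟨x, y⟩ hxy
      rw [LinearMap.coprod_apply] at hxy
      have h1 : f x ∈ LinearMap.range f ⊓ LinearMap.range g := by
        refine ⟨⟨x, rfl⟩, ⟨-y, ?_⟩⟩
        rw [map_neg]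
        exact (eq_neg_of_add_eq_zero_left hxy).symm
      rw [h.inf_eq_bot, Submodule.mem_bot] at h1
      have hx : x = 0 := hf (by rw [h1, map_zero])
      have hy : y = 0 := hg (by
        rw [h1, zero_add] at hxy
        rw [hxy, map_zero])
      rw [hx, hy]; rfl
    · rw [← LinearMap.range_eq_top, LinearMap.range_coprod]
      exact h.sup_eq_top
  · intro h
    refine ⟨?_, ?_⟩
    · rw [Submodule.disjoint_def]
      rintro z ⟨x, rfl⟩ ⟨y, hy⟩
      have h1 : (f.coprod g) (x, -y) = (f.coprod g) (0, 0) := by
        rw [LinearMap.coprod_apply, LinearMap.coprod_apply]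
        simp [hy]
      have := congrArg Prod.fst (h.1 h1)
      simp only at this
      rw [this, map_zero]
    · rw [codisjoint_iff, ← LinearMap.range_coprod, LinearMap.range_eq_top]
      exact h.2

theorem isCompl_iff_bijective (P Q : Submodule B M) :
    IsCompl P Q ↔ Function.Bijective (addMap P Q) := by
  have := isCompl_range_iff P.subtype Q.subtype Subtype.val_injective Subtype.val_injective
  rwa [Submodule.range_subtype, Submodule.range_subtype] at this

section BC

variable (B' : Type*) [CommRing B'] [Algebra B B']

theorem range_subtype_baseChange (P : Submodule B M) :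
    LinearMap.range (P.subtype.baseChange B') = P.baseChange B' := by
  apply le_antisymm
  · rintro _ ⟨w, rfl⟩
    exact range_baseChange_subtype_le P B' w
  · rw [Submodule.baseChange_eq_span, Submodule.span_le]
    rintro _ ⟨m, hm, rfl⟩
    exact ⟨1 ⊗ₜ ⟨m, hm⟩, rfl⟩

theorem injective_baseChange_of_retraction {P : Submodule B M}
    (r : M →ₗ[B] P) (hr : ∀ m : P, r m = m) : Function.Injective (P.subtype.baseChange B') := by
  have h : (r.baseChange B') ∘ₗ (P.subtype.baseChange B') = LinearMap.id := by
    rw [← LinearMap.baseChange_comp]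
    have : r ∘ₗ P.subtype = LinearMap.id := by
      ext m
      exact congrArg Subtype.val (hr m)
    rw [this, LinearMap.baseChange_id]
  intro x y hxy
  have := congrArg (r.baseChange B') hxy
  rw [← LinearMap.comp_apply, ← LinearMap.comp_apply, h] at this
  exact this

/-- acyclicity of the base change in terms of the base change of `P × Q → M`. -/
theorem isCompl_baseChange_iff {P Q : Submodule B M}
    (hP : ∃ r : M →ₗ[B] P, ∀ m : P, r m = m) (hQ : ∃ r : M →ₗ[B] Q, ∀ m : Q, r m = m) :
    IsCompl (P.baseChange B') (Q.baseChange B') ↔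
      Function.Bijective ((addMap P Q).baseChange B') := by
  obtain ⟨r, hr⟩ := hP
  obtain ⟨s, hs⟩ := hQ
  have h1 := isCompl_range_iff (P.subtype.baseChange B') (Q.subtype.baseChange B')
    (injective_baseChange_of_retraction B' r hr) (injective_baseChange_of_retraction B' s hs)
  rw [range_subtype_baseChange, range_subtype_baseChange] at h1
  rw [h1]
  let e : B' ⊗[B] (P × Q) ≃ₗ[B'] (B' ⊗[B] P) × (B' ⊗[B] Q) := TensorProduct.prodRight B B' B' P Q
  have h2 : (addMap P Q).baseChange B' =
      ((P.subtype.baseChange B').coprod (Q.subtype.baseChange B')) ∘ₗ (e : _ →ₗ[B'] _) := by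
    apply TensorProduct.AlgebraTensorModule.curry_injective
    ext x
    · simp [e, addMap]
    · simp [e, addMap]
  rw [h2]
  exact (Function.Bijective.of_comp_iff _ e.bijective).symm

end BC

end Fermat.Agent.JPic
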