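import Fermat.Agent.JPC.Base

/-!
# Finiteness on a two-chart curve over `k`

`A0 ∩ t^n A1` is finite dimensional and `A / (A0 + t^{-n} A1)` is finite dimensional.
-/

set_option autoImplicit false

universe u

open TensorProduct Polynomial

namespace Fermat.Agent.JPic

open Fermat.Agent.JPC

variable {k : Type u} [Field k] (X : TwoChart k)

/-- `t ^ n • A1` as the set of `a` with `t ^ (-n) a ∈ A1`. -/
def tA1 (n : ℤ) : Submodule k X.A where
  carrier := {a | ((X.t ^ (-n) : X.Aˣ) : X.A) * a ∈ X.A1}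
  add_mem' := fun {a b} ha hb => by
    show _ * (a + b) ∈ X.A1
    rw [mul_add]
    exact X.A1.add_mem ha hb
  zero_mem' := by
    show _ * (0 : X.A) ∈ X.A1
    rw [mul_zero]
    exact X.A1.zero_mem
  smul_mem' := fun c a ha => by
    show _ * (c • a) ∈ X.A1
    rw [mul_smul_comm]
    exact X.A1.smul_mem ha c

theorem mem_tA1 (n : ℤ) (a : X.A) : a ∈ tA1 X n ↔ ((X.t ^ (-n) : X.Aˣ) : X.A) * a ∈ X.A1 :=
  Iff.rfl

theorem mem_tA1_zero (a : X.A) : a ∈ tA1 X 0 ↔ a ∈ X.A1 := by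
  rw [mem_tA1]
  simp

theorem tinv_pow_mem (n : ℕ) : ((X.t⁻¹ : X.Aˣ) : X.A) ^ n ∈ X.A1 :=
  X.A1.pow_mem X.tinv_mem n

theorem tA1_mono {m n : ℤ} (h : m ≤ n) : tA1 X m ≤ tA1 X n := by
  intro a ha
  rw [mem_tA1] at ha ⊢
  obtain ⟨e, he⟩ := Int.le.dest h
  have : ((X.t ^ (-n) : X.Aˣ) : X.A) = ((X.t⁻¹ : X.Aˣ) : X.A) ^ e * ((X.t ^ (-m) : X.Aˣ) : X.A) := by
    rw [← Units.val_pow_eq_pow_val, ← Units.val_mul, ← he, neg_add, zpow_add, inv_pow,
      ← zpow_natCast, ← zpow_neg, mul_comm]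
  rw [this, mul_assoc]
  exact X.A1.mul_mem (tinv_pow_mem X e) ha

theorem exists_mem_tA1 (a : X.A) : ∃ n : ℕ, a ∈ tA1 X n := by
  obtain ⟨n, hn⟩ := X.ex1 a
  refine ⟨n, ?_⟩
  rw [mem_tA1]
  have : ((X.t ^ (-(n : ℤ)) : X.Aˣ) : X.A) = ((X.t⁻¹ : X.Aˣ) : X.A) ^ n := by
    rw [← Units.val_pow_eq_pow_val, inv_pow, zpow_neg, zpow_natCast]
  rwa [this]

/-- `A1 = k-span(b1) + t⁻¹ A1` -/
theorem exists_span_b1 (a : X.A) (ha : a ∈ X.A1) :
    ∃ c : Fin X.d → k, a - ∑ i, c i • X.b1 i ∈ tA1 X (-1) := by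
  obtain ⟨f, hf, -⟩ := X.b1_basis a ha
  refine ⟨fun i => (f i).coeff 0, ?_⟩
  rw [mem_tA1]
  have h1 : a - ∑ i, (f i).coeff 0 • X.b1 i =
      ∑ i, ((X.t⁻¹ : X.Aˣ) : X.A) * (aeval ((X.t⁻¹ : X.Aˣ) : X.A) (f i).divX * X.b1 i) := by
    conv_lhs => rw [hf]
    rw [← Finset.sum_sub_distrib]
    refine Finset.sum_congr rfl fun i _ => ?_
    conv_lhs => rw [← Polynomial.divX_mul_X_add (f i)]
    simp only [map_add, map_mul, aeval_X, aeval_C, coeff_add, mul_coeff_zero, coeff_X_zero,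
      mul_zero, coeff_C_zero, zero_add, Algebra.smul_def]
    ring
  have h2 : ((X.t ^ (-(-1 : ℤ)) : X.Aˣ) : X.A) = (X.t : X.A) := by simp
  rw [h1, h2, Finset.mul_sum]
  refine X.A1.sum_mem fun i _ => ?_
  rw [← mul_assoc, Units.mul_inv, one_mul]
  refine X.A1.mul_mem ?_ (X.b1_mem i)
  exact (Algebra.adjoin_le (Set.singleton_subset_iff.2 X.tinv_mem))
    (Polynomial.aeval_mem_adjoin_singleton k _)

/-- `t^n A1 ⊆ span (t^n b1) + t^{n-1} A1` -/
theorem tA1_le_sup (n : ℤ) : tA1 X (n + 1) ≤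
    Submodule.span k (Set.range fun i => ((X.t ^ (n + 1) : X.Aˣ) : X.A) * X.b1 i) ⊔ tA1 X n := by
  intro a ha
  obtain ⟨c, hc⟩ := exists_span_b1 X _ ha
  have h1 : a = (∑ i, c i • (((X.t ^ (n + 1) : X.Aˣ) : X.A) * X.b1 i)) +
      (a - ∑ i, c i • (((X.t ^ (n + 1) : X.Aˣ) : X.A) * X.b1 i)) := by abel
  rw [h1]
  refine Submodule.add_mem_sup ?_ ?_
  · exact Submodule.sum_mem _ fun i _ => Submodule.smul_mem _ _ (Submodule.subset_span ⟨i, rfl⟩)
  · rw [mem_tA1] at hc ⊢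
    have h2 : ((X.t ^ (-(-1 : ℤ)) : X.Aˣ) : X.A) * (((X.t ^ (-(n+1)) : X.Aˣ) : X.A) * a -
        ∑ i, c i • X.b1 i) = ((X.t ^ (-n) : X.Aˣ) : X.A) *
        (a - ∑ i, c i • (((X.t ^ (n + 1) : X.Aˣ) : X.A) * X.b1 i)) := by
      rw [mul_sub, mul_sub, ← mul_assoc, ← Units.val_mul, ← zpow_add, Finset.mul_sum,
        Finset.mul_sum]
      congr 1
      · congr 3; ring
      · refine Finset.sum_congr rfl fun i _ => ?_
        rw [mul_smul_comm, mul_smul_comm, ← mul_assoc, ← Units.val_mul, ← zpow_add]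
        congr 4; ring
    rwa [h2] at hc

theorem fg_of_le {V : Type*} [AddCommGroup V] [Module k V] {S T : Submodule k V} (hT : T.FG)
    (h : S ≤ T) : S.FG := by
  have : IsNoetherian k T := isNoetherian_of_fg_of_noetherian T hT
  have h1 : (S.comap T.subtype).FG := IsNoetherian.noetherian _
  have h2 := h1.map T.subtype
  rwa [Submodule.map_comap_subtype, inf_eq_right.2 h] at h2

/-- **finiteness of `H⁰(C, O(n∞))`** -/
theorem H0_fg (n : ℕ) : (Subalgebra.toSubmodule X.A0 ⊓ tA1 X n).FG := by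
  induction n with
  | zero =>
    have : Subalgebra.toSubmodule X.A0 ⊓ tA1 X ((0 : ℕ) : ℤ) = Subalgebra.toSubmodule (⊥ : Subalgebra k X.A) := by
      rw [← X.inf]
      ext a
      rw [Submodule.mem_inf, Nat.cast_zero, mem_tA1_zero]
      rfl
    rw [this, Algebra.toSubmodule_bot]
    exact ⟨{1}, by rw [Finset.coe_singleton, Submodule.one_eq_span]⟩
  | succ n ih =>
    refine Submodule.fg_of_fg_map_of_fg_inf_ker (tA1 X n).mkQ ?_ ?_
    · refine fg_of_le (T := (Submodule.span k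
        (Set.range fun i => ((X.t ^ ((n : ℤ) + 1) : X.Aˣ) : X.A) * X.b1 i)).map (tA1 X n).mkQ) ?_ ?_
      · exact (Submodule.fg_span (Set.finite_range _)).map _
      · rintro _ ⟨a, ha, rfl⟩
        have h1 := tA1_le_sup X n (by simpa using ha.2)
        obtain ⟨u, hu, v, hv, rfl⟩ := Submodule.mem_sup.1 h1
        refine ⟨u, hu, ?_⟩
        rw [map_add, (Submodule.Quotient.mk_eq_zero (tA1 X n)).2 hv |> fun h => (h : (tA1 X n).mkQ v = 0),
          add_zero]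
    · rw [Submodule.ker_mkQ]
      refine (congrArg Submodule.FG ?_).mpr ih
      apply le_antisymm
      · exact fun a ha => ⟨ha.1.1, ha.2⟩
      · exact fun a ha => ⟨⟨ha.1, tA1_mono X (by simp) ha.2⟩, ha.2⟩

theorem exists_pow_mem_tA1 (m : ℤ) (a : X.A) : ∃ E : ℕ, ∀ e : ℕ, E ≤ e →
    ((X.t ^ (-(e : ℤ)) : X.Aˣ) : X.A) * a ∈ tA1 X m := by
  obtain ⟨n, hn⟩ := exists_mem_tA1 X a
  refine ⟨((n : ℤ) - m).toNat, fun e he => ?_⟩
  rw [mem_tA1, ← mul_assoc, ← Units.val_mul, ← zpow_add]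
  have h1 : (n : ℤ) ≤ m + e := by omega
  have h2 := tA1_mono X h1 hn
  rw [mem_tA1] at h2
  have h3 : -m + -(e : ℤ) = -(m + e) := by ring
  rwa [h3]

/-- **finiteness of `H¹(C, O(m∞))`** -/
theorem H1_finite (m : ℤ) :
    Module.Finite k (X.A ⧸ (Subalgebra.toSubmodule X.A0 ⊔ tA1 X m)) := by
  classical
  -- a uniform bound
  have hE : ∃ E : ℕ, ∀ (i : Fin X.d) (e : ℕ), E ≤ e →
      ((X.t ^ (-(e : ℤ)) : X.Aˣ) : X.A) * X.b0 i ∈ tA1 X m := by
    choose E hE using fun i => exists_pow_mem_tA1 X m (X.b0 i)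
    exact ⟨Finset.univ.sup E, fun i e he => hE i e (le_trans (Finset.le_sup (Finset.mem_univ i)) he)⟩
  obtain ⟨E, hE⟩ := hE
  let T : Set X.A := Set.range fun x : Fin E × Fin X.d =>
    ((X.t ^ (-((x.1 : ℕ) : ℤ)) : X.Aˣ) : X.A) * X.b0 x.2
  have hT : T.Finite := Set.finite_range _
  set S : Submodule k X.A := Subalgebra.toSubmodule X.A0 ⊔ tA1 X m with hS
  have key : ∀ (z : ℤ) (i : Fin X.d), ((X.t ^ z : X.Aˣ) : X.A) * X.b0 i ∈ S ⊔ Submodule.span k T := by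
    intro z i
    rcases le_or_gt 0 z with hz | hz
    · obtain ⟨e, rfl⟩ := Int.eq_ofNat_of_zero_le hz
      refine (le_sup_left : S ≤ _) ((le_sup_left : _ ≤ S) ?_)
      show _ ∈ X.A0
      refine X.A0.mul_mem ?_ (X.b0_mem i)
      rw [zpow_natCast, Units.val_pow_eq_pow_val]
      exact X.A0.pow_mem X.t_mem e
    · obtain ⟨e, he⟩ := Int.eq_ofNat_of_zero_le (le_of_lt (neg_pos.2 hz))
      have hz' : z = -(e : ℤ) := by omega
      rw [hz']
      rcases le_or_gt E e with hEe | hEe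
      · exact (le_sup_left : S ≤ _) ((le_sup_right : _ ≤ S) (hE i e hEe))
      · exact (le_sup_right : _ ≤ S ⊔ Submodule.span k T) (Submodule.subset_span ⟨(⟨e, hEe⟩, i), rfl⟩)
  have hall : ∀ a : X.A, a ∈ S ⊔ Submodule.span k T := by
    intro a
    obtain ⟨N, hN⟩ := X.ex0 a
    obtain ⟨f, hf, -⟩ := X.b0_basis _ hN
    have h1 : a = ∑ i, ((X.t ^ (-(N : ℤ)) : X.Aˣ) : X.A) * (aeval (X.t : X.A) (f i) * X.b0 i) := by
      rw [← Finset.mul_sum, ← hf, ← Units.val_pow_eq_pow_val, ← mul_assoc, ← Units.val_mul,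
        ← zpow_natCast, ← zpow_add, neg_add_cancel, zpow_zero, Units.val_one, one_mul]
    rw [h1]
    refine Submodule.sum_mem _ fun i _ => ?_
    rw [Polynomial.aeval_eq_sum_range, Finset.sum_mul, Finset.mul_sum]
    refine Submodule.sum_mem _ fun e _ => ?_
    have h2 : ((X.t ^ (-(N : ℤ)) : X.Aˣ) : X.A) * ((f i).coeff e • (X.t : X.A) ^ e * X.b0 i) =
        (f i).coeff e • (((X.t ^ ((e : ℤ) - N) : X.Aˣ) : X.A) * X.b0 i) := by
      rw [smul_mul_assoc, mul_smul_comm, ← mul_assoc, ← Units.val_pow_eq_pow_val, ← Units.val_mul,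
        ← zpow_natCast, ← zpow_add]
      congr 4; ring
    rw [h2]
    exact Submodule.smul_mem _ _ (key _ i)
  refine ⟨⟨(hT.toFinset).image S.mkQ, ?_⟩⟩
  rw [Finset.coe_image, Set.Finite.coe_toFinset, ← Submodule.map_span, eq_top_iff]
  intro q _
  obtain ⟨a, rfl⟩ := Submodule.mkQ_surjective S q
  obtain ⟨u, hu, v, hv, rfl⟩ := Submodule.mem_sup.1 (hall a)
  refine ⟨v, hv, ?_⟩
  rw [map_add]
  have : S.mkQ u = 0 := (Submodule.Quotient.mk_eq_zero S).2 hu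
  rw [this, zero_add]

end Fermat.Agent.JPic
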