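import Fermat.Agent.JPic.TensLoc
import Fermat.Agent.JPic.Curve
import Fermat.Agent.JPic.Compl

/-!
# Finiteness of the cohomology of line data
-/

set_option autoImplicit false

universe u

open TensorProduct

namespace Fermat.Agent.JPic

open Fermat.Agent.JPC

variable {k : Type u} [Field k] {X : TwoChart k} {B : Type u} [CommRing B] [Algebra k B]
  (L : PreLD X B)

/-- dual basis for `M0` -/
theorem exists_dual0 (hL : L.IsLine) :
    ∃ (n : ℕ) (j : L.M →ₗ[B ⊗[k] X.A] (Fin n → B ⊗[k] X.A)) (q : (Fin n → B ⊗[k] X.A) →ₗ[B ⊗[k] X.A] L.M),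
      (∀ m, q (j m) = m) ∧ (∀ m ∈ L.M0, ∀ i, ∃ s : B ⊗[k] X.A0, j m i = incl B X.A0 s) ∧
      (∀ s : Fin n → B ⊗[k] X.A, (∀ i, ∃ s0 : B ⊗[k] X.A0, s i = incl B X.A0 s0) → q s ∈ L.M0) := by
  letI := inclAlgebra B X.A0
  haveI : IsScalarTower (B ⊗[k] X.A0) (B ⊗[k] X.A) L.M := ⟨fun s r m => by
    rw [Algebra.smul_def, mul_smul]
    show (incl B X.A0 s) • r • m = s • r • m
    generalize r • m = m'
    induction s using TensorProduct.induction_on with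
    | zero => rw [map_zero, zero_smul (B ⊗[k] X.A) m', zero_smul (B ⊗[k] X.A0) m']
    | tmul b a => rfl
    | add u v hu hv => rw [map_add, add_smul, add_smul, hu, hv]⟩
  haveI : IsLocalization.Away ((1 : B) ⊗ₜ[k] (⟨X.t, X.t_mem⟩ : X.A0)) (B ⊗[k] X.A) :=
    isLocalization_incl B X.A0 ⟨X.t, X.t_mem⟩ ((X.t⁻¹ : X.Aˣ) : X.A) (Units.mul_inv _) X.ex0
  haveI := hL.inv0
  have ex : ∀ m : L.M, ∃ n : ℕ, ((1 : B) ⊗ₜ[k] (⟨X.t, X.t_mem⟩ : X.A0)) ^ n • m ∈ L.M0' := by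
    intro m
    obtain ⟨n, hn⟩ := L.ex0 m
    refine ⟨n, ?_⟩
    rw [Algebra.TensorProduct.tmul_pow, one_pow]
    show (1 : B) • ((X.t : X.A) ^ n) • m ∈ L.M0
    rwa [one_smul]
  exact exists_dual (S0 := B ⊗[k] X.A0) (S := B ⊗[k] X.A) _ L.M0' ex

/-- dual basis for `M1` -/
theorem exists_dual1 (hL : L.IsLine) :
    ∃ (n : ℕ) (j : L.M →ₗ[B ⊗[k] X.A] (Fin n → B ⊗[k] X.A)) (q : (Fin n → B ⊗[k] X.A) →ₗ[B ⊗[k] X.A] L.M),
      (∀ m, q (j m) = m) ∧ (∀ m ∈ L.M1, ∀ i, ∃ s : B ⊗[k] X.A1, j m i = incl B X.A1 s) ∧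
      (∀ s : Fin n → B ⊗[k] X.A, (∀ i, ∃ s0 : B ⊗[k] X.A1, s i = incl B X.A1 s0) → q s ∈ L.M1) := by
  letI := inclAlgebra B X.A1
  haveI : IsScalarTower (B ⊗[k] X.A1) (B ⊗[k] X.A) L.M := ⟨fun s r m => by
    rw [Algebra.smul_def, mul_smul]
    show (incl B X.A1 s) • r • m = s • r • m
    generalize r • m = m'
    induction s using TensorProduct.induction_on with
    | zero => rw [map_zero, zero_smul (B ⊗[k] X.A) m', zero_smul (B ⊗[k] X.A1) m']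
    | tmul b a => rfl
    | add u v hu hv => rw [map_add, add_smul, add_smul, hu, hv]⟩
  haveI : IsLocalization.Away ((1 : B) ⊗ₜ[k] (⟨((X.t⁻¹ : X.Aˣ) : X.A), X.tinv_mem⟩ : X.A1)) (B ⊗[k] X.A) :=
    isLocalization_incl B X.A1 ⟨_, X.tinv_mem⟩ (X.t : X.A) (Units.inv_mul _) X.ex1
  haveI := hL.inv1
  have ex : ∀ m : L.M, ∃ n : ℕ,
      ((1 : B) ⊗ₜ[k] (⟨((X.t⁻¹ : X.Aˣ) : X.A), X.tinv_mem⟩ : X.A1)) ^ n • m ∈ L.M1' := by
    intro m
    obtain ⟨n, hn⟩ := L.ex1 m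
    refine ⟨n, ?_⟩
    rw [Algebra.TensorProduct.tmul_pow, one_pow]
    show (1 : B) • (((X.t⁻¹ : X.Aˣ) : X.A) ^ n) • m ∈ L.M1
    rwa [one_smul]
  exact exists_dual (S0 := B ⊗[k] X.A1) (S := B ⊗[k] X.A) _ L.M1' ex

theorem projM (hL : L.IsLine) : Module.Projective B L.M := by
  obtain ⟨n, j, q, hqj, -, -⟩ := exists_dual0 L hL
  exact Module.Projective.of_split (j.restrictScalars B) (q.restrictScalars B) (by
    ext m
    exact hqj m)

/-- `B`-linear retraction of `B ⊗ A0 → B ⊗ A` -/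
theorem exists_retraction (A0 : Subalgebra k X.A) :
    ∃ ρ : (B ⊗[k] X.A) →ₗ[B] (B ⊗[k] A0), ∀ s, ρ (incl B A0 s) = s := by
  obtain ⟨π, hπ⟩ := LinearMap.exists_leftInverse_of_injective A0.val.toLinearMap
    (LinearMap.ker_eq_bot.2 Subtype.val_injective)
  refine ⟨π.baseChange B, fun s => ?_⟩
  induction s using TensorProduct.induction_on with
  | zero => simp
  | tmul b a =>
    have : π (a : X.A) = a := LinearMap.congr_fun hπ a
    rw [incl_tmul, LinearMap.baseChange_tmul, this]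
  | add u v hu hv => rw [map_add, map_add, hu, hv]

theorem ret0 (hL : L.IsLine) : ∃ r : L.M →ₗ[B] L.M0, ∀ m : L.M0, r m = m := by
  obtain ⟨n, j, q, hqj, hj, hq⟩ := exists_dual0 L hL
  obtain ⟨ρ, hρ⟩ := exists_retraction (B := B) X.A0
  let r' : L.M →ₗ[B] L.M := (q.restrictScalars B) ∘ₗ
    (LinearMap.pi fun i => ((incl B X.A0).toLinearMap ∘ₗ ρ) ∘ₗ LinearMap.proj i) ∘ₗ
    (j.restrictScalars B)
  have hr' : ∀ m, r' m = q (fun i => incl B X.A0 (ρ (j m i))) := fun m => rfl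
  refine ⟨r'.codRestrict L.M0 fun m => ?_, fun m => ?_⟩
  · rw [hr']
    exact hq _ fun i => ⟨_, rfl⟩
  · apply Subtype.ext
    show r' m = m
    rw [hr']
    have : (fun i => incl B X.A0 (ρ (j (m : L.M) i))) = j m := by
      funext i
      obtain ⟨s, hs⟩ := hj m m.2 i
      rw [hs, hρ]
    rw [this, hqj]

theorem ret1 (hL : L.IsLine) : ∃ r : L.M →ₗ[B] L.M1, ∀ m : L.M1, r m = m := by
  obtain ⟨n, j, q, hqj, hj, hq⟩ := exists_dual1 L hL
  obtain ⟨ρ, hρ⟩ := exists_retraction (B := B) X.A1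
  let r' : L.M →ₗ[B] L.M := (q.restrictScalars B) ∘ₗ
    (LinearMap.pi fun i => ((incl B X.A1).toLinearMap ∘ₗ ρ) ∘ₗ LinearMap.proj i) ∘ₗ
    (j.restrictScalars B)
  have hr' : ∀ m, r' m = q (fun i => incl B X.A1 (ρ (j m i))) := fun m => rfl
  refine ⟨r'.codRestrict L.M1 fun m => ?_, fun m => ?_⟩
  · rw [hr']
    exact hq _ fun i => ⟨_, rfl⟩
  · apply Subtype.ext
    show r' m = m
    rw [hr']
    have : (fun i => incl B X.A1 (ρ (j (m : L.M) i))) = j m := by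
      funext i
      obtain ⟨s, hs⟩ := hj m m.2 i
      rw [hs, hρ]
    rw [this, hqj]

end Fermat.Agent.JPic
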