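import Fermat.Agent.JPic.OpenBij2

/-!
# The ideal of the bijectivity locus of a linear map
-/

set_option autoImplicit false

universe u v

namespace Fermat.Agent.JPic

open TensorProduct

variable {B : Type u} {X Y : Type v} [CommRing B] [AddCommGroup X] [Module B X] [AddCommGroup Y]
  [Module B Y]

/-- bijectivity after inverting `f` passes to every algebra where `f` is invertible. -/
theorem bijective_baseChange_of_away (φ : X →ₗ[B] Y) (f : B)
    (h : Function.Bijective (φ.baseChange (Localization.Away f)))
    (B' : Type*) [CommRing B'] [Algebra B B'] (hu : IsUnit (algebraMap B B' f)) :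
    Function.Bijective (φ.baseChange B') := by
  let ψ : Localization.Away f →+* B' := IsLocalization.Away.lift f hu
  letI : Algebra (Localization.Away f) B' := ψ.toAlgebra
  haveI : IsScalarTower B (Localization.Away f) B' := IsScalarTower.of_algebraMap_eq fun x => by
    rw [RingHom.algebraMap_toAlgebra]
    exact (IsLocalization.Away.lift_eq f hu x).symm
  rw [← bijective_baseChange_tower φ (Localization.Away f) B']
  exact bijective_baseChange _ h B'

/-- the ideal generated by the `f` such that `φ` is bijective over `B_f`. -/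
def bijIdeal (φ : X →ₗ[B] Y) : Ideal B :=
  Ideal.span {f : B | Function.Bijective (φ.baseChange (Localization.Away f))}

/-- locality of bijectivity of a linear map over `B'`. -/
theorem bijective_of_locally {B' : Type*} {X' Y' : Type*} [CommRing B'] [AddCommGroup X']
    [Module B' X'] [AddCommGroup Y'] [Module B' Y'] (ψ : X' →ₗ[B'] Y')
    (h : ∀ (m : Ideal B') [m.IsMaximal], Function.Bijective (ψ.baseChange (Localization.AtPrime m))) :
    Function.Bijective ψ := by
  refine bijective_of_isLocalized_maximal
    (fun m _ => Localization.AtPrime m ⊗[B'] X')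
    (fun m _ => TensorProduct.mk B' (Localization.AtPrime m) X' 1)
    (fun m _ => Localization.AtPrime m ⊗[B'] Y')
    (fun m _ => TensorProduct.mk B' (Localization.AtPrime m) Y' 1) ψ ?_
  intro m hm
  have h1 : Function.Bijective (ψ.baseChange (Localization.AtPrime m)) := h m
  have h2 : IsLocalizedModule.map m.primeCompl (TensorProduct.mk B' (Localization.AtPrime m) X' 1)
      (TensorProduct.mk B' (Localization.AtPrime m) Y' 1) ψ =
      (ψ.baseChange (Localization.AtPrime m)).restrictScalars B' := by
    apply IsLocalizedModule.linearMap_ext m.primeCompl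
      (TensorProduct.mk B' (Localization.AtPrime m) X' 1)
      (TensorProduct.mk B' (Localization.AtPrime m) Y' 1)
    ext x
    have h3 := IsLocalizedModule.map_apply m.primeCompl
      (TensorProduct.mk B' (Localization.AtPrime m) X' 1)
      (TensorProduct.mk B' (Localization.AtPrime m) Y' 1) ψ x
    refine h3.trans ?_
    simp
  rw [h2]
  exact h1

/-- the generic covering argument: a set of `f`'s generating the unit ideal in `B'` -/
theorem exists_notMem_of_map_eq_top (S : Set B) (B' : Type*) [CommRing B'] [Algebra B B']
    (h : (Ideal.span S).map (algebraMap B B') = ⊤) (m : Ideal B') (hm : m ≠ ⊤) :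
    ∃ f ∈ S, algebraMap B B' f ∉ m := by
  by_contra hcon
  push Not at hcon
  apply hm
  rw [eq_top_iff, ← h, Ideal.map_span, Ideal.span_le]
  rintro _ ⟨f, hf, rfl⟩
  exact hcon f hf

theorem bijective_of_map_bijIdeal (φ : X →ₗ[B] Y) (B' : Type*) [CommRing B'] [Algebra B B']
    (h : (bijIdeal φ).map (algebraMap B B') = ⊤) : Function.Bijective (φ.baseChange B') := by
  refine bijective_of_locally _ fun m hm => ?_
  obtain ⟨f, hf, hfm⟩ := exists_notMem_of_map_eq_top _ B' h m (Ideal.IsMaximal.ne_top hm)
  have := bijective_baseChange_of_away φ f hf (Localization.AtPrime m) (by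
    rw [IsScalarTower.algebraMap_apply B B' (Localization.AtPrime m)]
    exact IsLocalization.map_units (Localization.AtPrime m) (⟨_, hfm⟩ : m.primeCompl))
  rw [← bijective_baseChange_tower φ B' (Localization.AtPrime m)] at this
  exact this

/-- the covering argument in the other direction. -/
theorem map_eq_top_of_forall_prime (S : Set B) (B' : Type*) [CommRing B'] [Algebra B B']
    (h : ∀ (m : Ideal B') (_ : m.IsMaximal), ∃ f ∈ S, algebraMap B B' f ∉ m) :
    (Ideal.span S).map (algebraMap B B') = ⊤ := by
  by_contra hne
  obtain ⟨m, hm, hle⟩ := Ideal.exists_le_maximal _ hne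
  obtain ⟨f, hf, hfm⟩ := h m hm
  exact hfm (hle (Ideal.mem_map_of_mem _ (Ideal.subset_span hf)))

theorem map_bijIdeal_of_bijective (φ : X →ₗ[B] Y) [Module.Projective B Y]
    [Module.Finite B (Y ⧸ LinearMap.range φ)]
    (G : Submodule B X) (hG : G.FG) (hk : LinearMap.ker φ ≤ G)
    (B' : Type*) [CommRing B'] [Algebra B B'] (h : Function.Bijective (φ.baseChange B')) :
    (bijIdeal φ).map (algebraMap B B') = ⊤ := by
  refine map_eq_top_of_forall_prime _ B' fun m hm => ?_
  let _ := Ideal.Quotient.field m
  let p : PrimeSpectrum B := ⟨m.comap (algebraMap B B'), inferInstance⟩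
  have hp : p.asIdeal = RingHom.ker (algebraMap B (B' ⧸ m)) := by
    rw [IsScalarTower.algebraMap_eq B B' (B' ⧸ m), ← RingHom.comap_ker, Ideal.Quotient.algebraMap_eq,
      Ideal.mk_ker]
  have h1 : Function.Bijective (φ.baseChange (B' ⧸ m)) := by
    rw [← bijective_baseChange_tower φ B' (B' ⧸ m)]
    exact bijective_baseChange _ h _
  rw [bijective_residueField_iff φ (B' ⧸ m) p hp] at h1
  obtain ⟨f, hf, hb⟩ := exists_bijective_baseChange φ G hG hk p h1
  exact ⟨f, hb (Localization.Away f) (IsLocalization.Away.algebraMap_isUnit f), hf⟩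

/-- **the bijectivity locus is the open subscheme defined by `bijIdeal φ`.** -/
theorem bijective_baseChange_iff_bijIdeal (φ : X →ₗ[B] Y) [Module.Projective B Y]
    [Module.Finite B (Y ⧸ LinearMap.range φ)]
    (G : Submodule B X) (hG : G.FG) (hk : LinearMap.ker φ ≤ G)
    (B' : Type*) [CommRing B'] [Algebra B B'] : Function.Bijective (φ.baseChange B') ↔
      (bijIdeal φ).map (algebraMap B B') = ⊤ :=
  ⟨map_bijIdeal_of_bijective φ G hG hk B', bijective_of_map_bijIdeal φ B'⟩

end Fermat.Agent.JPic
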