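import Fermat.Agent.JPic.LDOpen
import Fermat.Agent.JPic.BijIdeal

/-!
# The acyclic locus of a line datum is open, defined by an ideal, compatible with base change
-/

set_option autoImplicit false

universe u

open TensorProduct

namespace Fermat.Agent.JPic

open Fermat.Agent.JPC

variable {k : Type u} [Field k] {X : TwoChart k} {B : Type u} [CommRing B] [Algebra k B]
  (L : PreLD X B)

/-- the kernel of `M0 × M1 → M` is bounded -/
theorem exists_fg_ker (hL : L.IsLine) : ∃ G : Submodule B (L.M0 × L.M1), G.FG ∧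
    LinearMap.ker (addMap L.M0 L.M1) ≤ G := by
  obtain ⟨G, hG, hle⟩ := exists_fg_H0 L hL
  obtain ⟨r0, hr0⟩ := ret0 L hL
  obtain ⟨r1, hr1⟩ := ret1 L hL
  refine ⟨(G.map r0).prod (G.map r1), (hG.map r0).prod (hG.map r1), ?_⟩
  rintro ⟨x, y⟩ hxy
  rw [LinearMap.mem_ker, addMap_apply] at hxy
  simp only at hxy
  have hx : (x : L.M) ∈ L.M0 ⊓ L.M1 := by
    refine ⟨x.2, ?_⟩
    rw [eq_neg_of_add_eq_zero_left hxy]
    exact L.M1.neg_mem y.2
  have hy : (y : L.M) ∈ L.M0 ⊓ L.M1 := by
    refine ⟨?_, y.2⟩
    rw [eq_neg_of_add_eq_zero_right hxy]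
    exact L.M0.neg_mem x.2
  exact ⟨⟨x, hle hx, hr0 x⟩, ⟨y, hle hy, hr1 y⟩⟩

theorem finite_quot_range (hL : L.IsLine) :
    Module.Finite B (L.M ⧸ LinearMap.range (addMap L.M0 L.M1)) := by
  rw [range_addMap]
  exact finite_coker L hL

section BC

variable (B' : Type u) [CommRing B'] [Algebra k B'] [Algebra B B'] [IsScalarTower k B B']

/-- acyclicity of the base change in terms of the single map `M0 × M1 → M`. -/
theorem acyclic_iff (hL : L.IsLine) :
    (L.baseChange B').Acyclic ↔ Function.Bijective ((addMap L.M0 L.M1).baseChange B') :=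
  isCompl_baseChange_iff B' (ret0 L hL) (ret1 L hL)

/-- acyclicity is stable under base change -/
theorem acyclic_baseChange (h : L.Acyclic) (hL : L.IsLine) : (L.baseChange B').Acyclic := by
  rw [acyclic_iff L B' hL]
  exact bijective_baseChange _ ((isCompl_iff_bijective L.M0 L.M1).1 h) B'

/-- base change in stages -/
theorem acyclic_baseChange_of_tower (hL : L.IsLine) (B'' : Type u) [CommRing B''] [Algebra k B'']
    [Algebra B B''] [Algebra B' B''] [IsScalarTower k B B''] [IsScalarTower B B' B'']
    (h : (L.baseChange B').Acyclic) : (L.baseChange B'').Acyclic := by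
  rw [acyclic_iff L _ hL] at h ⊢
  rw [← bijective_baseChange_tower _ B' B'']
  exact bijective_baseChange _ h B''

/-- faithfully flat descent of acyclicity -/
theorem acyclic_of_faithfullyFlat (hL : L.IsLine) (B'' : Type u) [CommRing B''] [Algebra k B'']
    [Algebra B B''] [Algebra B' B''] [IsScalarTower k B B''] [IsScalarTower B B' B'']
    [Module.FaithfullyFlat B' B''] (h : (L.baseChange B'').Acyclic) :
    (L.baseChange B').Acyclic := by
  rw [acyclic_iff L _ hL] at h ⊢
  rw [← bijective_baseChange_tower _ B' B''] at h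
  exact (bijective_baseChange_iff_of_faithfullyFlat _ B'').1 h

end BC

/-- the fibre at a field valued point depends only on the prime -/
theorem acyclic_field_iff (hL : L.IsLine) (K : Type u) [Field K] [Algebra k K] [Algebra B K]
    [IsScalarTower k B K] (p : PrimeSpectrum B) (hp : p.asIdeal = RingHom.ker (algebraMap B K)) :
    (L.baseChange K).Acyclic ↔ (L.baseChange p.asIdeal.ResidueField).Acyclic := by
  rw [acyclic_iff L _ hL, acyclic_iff L _ hL]
  exact bijective_residueField_iff _ K p hp

/-- **openness of the acyclic locus** -/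
theorem acyclic_open (hL : L.IsLine) (p : PrimeSpectrum B)
    (hp : (L.baseChange p.asIdeal.ResidueField).Acyclic) :
    ∃ f : B, f ∉ p.asIdeal ∧ ∀ (B' : Type u) [CommRing B'] [Algebra k B'] [Algebra B B']
      [IsScalarTower k B B'], IsUnit (algebraMap B B' f) → (L.baseChange B').Acyclic := by
  haveI := projM L hL
  haveI := finite_quot_range L hL
  obtain ⟨G, hG, hk⟩ := exists_fg_ker L hL
  rw [acyclic_iff L _ hL] at hp
  obtain ⟨f, hf, h⟩ := exists_bijective_baseChange (addMap L.M0 L.M1) G hG hk p hp
  refine ⟨f, hf, fun B' _ _ _ _ hu => ?_⟩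
  rw [acyclic_iff L _ hL]
  exact h B' hu

/-- a line datum with acyclic fibres is acyclic -/
theorem acyclic_of_fibres (hL : L.IsLine)
    (hp : ∀ p : PrimeSpectrum B, (L.baseChange p.asIdeal.ResidueField).Acyclic) : L.Acyclic := by
  haveI := projM L hL
  haveI := finite_quot_range L hL
  obtain ⟨G, hG, hk⟩ := exists_fg_ker L hL
  refine (isCompl_iff_bijective L.M0 L.M1).2 ?_
  exact bijective_of_fibres (addMap L.M0 L.M1) G hG hk fun p => (acyclic_iff L _ hL).1 (hp p)

/-- the ideal of the acyclic locus -/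
def acIdeal : Ideal B := bijIdeal (addMap L.M0 L.M1)

/-- **the acyclic locus is the open subscheme defined by `acIdeal`, after any base change.** -/
theorem acyclic_baseChange_iff (hL : L.IsLine) (B' : Type u) [CommRing B'] [Algebra k B']
    [Algebra B B'] [IsScalarTower k B B'] :
    (L.baseChange B').Acyclic ↔ (acIdeal L).map (algebraMap B B') = ⊤ := by
  haveI := projM L hL
  haveI := finite_quot_range L hL
  obtain ⟨G, hG, hk⟩ := exists_fg_ker L hL
  rw [acyclic_iff L _ hL]
  exact bijective_baseChange_iff_bijIdeal (addMap L.M0 L.M1) G hG hk B'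

theorem exists_ideal_acyclic (hL : L.IsLine) : ∃ I : Ideal B, ∀ (B' : Type u) [CommRing B']
    [Algebra k B'] [Algebra B B'] [IsScalarTower k B B'],
    (L.baseChange B').Acyclic ↔ I.map (algebraMap B B') = ⊤ :=
  ⟨acIdeal L, fun B' _ _ _ _ => acyclic_baseChange_iff L hL B'⟩

end Fermat.Agent.JPic
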