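import Fermat.Agent.JPC.Base
import Fermat.Agent.JF.Ret

/-!
# Base change of a line datum is a line datum
-/

set_option autoImplicit false

universe u

open TensorProduct

namespace Fermat.Agent.JPic

open Fermat.Agent.JPC

section abs

variable {B B' S S' P P' : Type*} [CommRing B] [CommRing B'] [Algebra B B'] [CommRing S]
  [CommRing S'] [Algebra B S] [Algebra B' S'] [Algebra S S']
  [AddCommGroup P] [Module B P] [Module S P] [IsScalarTower B S P]
  [AddCommGroup P'] [Module B' P'] [Module S' P'] [IsScalarTower B' S' P']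

theorem invertible_of_baseChange
    (hBS : ∀ b : B, algebraMap S S' (algebraMap B S b) = algebraMap B' S' (algebraMap B B' b))
    (hS : ∀ z : S', z ∈ Submodule.span B' (Set.range (algebraMap S S')))
    (f : P →+ P') (hf : ∀ (s : S) (m : P), f (s • m) = algebraMap S S' s • f m)
    (F : B' ⊗[B] P →+ P') (hF : ∀ (b : B') (m : P), F (b ⊗ₜ m) = b • f m)
    (hb : Function.Bijective F) [Module.Invertible S P] : Module.Invertible S' P' := by
  letI : Module S P' := Module.compHom P' (algebraMap S S')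
  haveI : IsScalarTower S S' P' := ⟨fun s z m => by rw [Algebra.smul_def, mul_smul]; rfl⟩
  let fS : P →ₗ[S] P' := { toFun := f, map_add' := f.map_add, map_smul' := hf }
  let g : S' ⊗[S] P →ₗ[S'] P' := fS.liftBaseChange S'
  have hgt : ∀ (z : S') (m : P), g (z ⊗ₜ m) = z • f m := fun z m =>
    LinearMap.liftBaseChange_tmul S' fS z m
  let h : B' ⊗[B] P →+ S' ⊗[S] P := TensorProduct.liftAddHom
    { toFun := fun b =>
        { toFun := fun m => algebraMap B' S' b ⊗ₜ m
          map_zero' := tmul_zero _ _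
          map_add' := fun x y => tmul_add _ _ _ }
      map_zero' := by ext m; simp
      map_add' := fun x y => by ext m; simp [add_tmul] }
    (fun r b m => by
      show algebraMap B' S' (r • b) ⊗ₜ[S] m = algebraMap B' S' b ⊗ₜ[S] (r • m)
      rw [Algebra.smul_def, map_mul, ← hBS, ← Algebra.smul_def, TensorProduct.smul_tmul,
        algebraMap_smul])
  have hht : ∀ (b : B') (m : P), h (b ⊗ₜ m) = algebraMap B' S' b ⊗ₜ m := fun _ _ => rfl
  have hgh : ∀ x, g (h x) = F x := by
    intro x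
    induction x using TensorProduct.induction_on with
    | zero => rw [map_zero, map_zero, map_zero]
    | tmul b m => rw [hht, hgt, hF, algebraMap_smul]
    | add x y hx hy => rw [map_add, map_add, map_add, hx, hy]
  have hsurj : Function.Surjective h := by
    intro y
    induction y using TensorProduct.induction_on with
    | zero => exact ⟨0, map_zero _⟩
    | add x y hx hy =>
      obtain ⟨a, rfl⟩ := hx
      obtain ⟨b, rfl⟩ := hy
      exact ⟨a + b, map_add _ _ _⟩
    | tmul z m =>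
      have hz := hS z
      induction hz using Submodule.span_induction with
      | mem z hz =>
        obtain ⟨s, rfl⟩ := hz
        refine ⟨1 ⊗ₜ (s • m), ?_⟩
        rw [hht, map_one, ← TensorProduct.smul_tmul, Algebra.smul_def, mul_one]
      | zero => exact ⟨0, by rw [map_zero, zero_tmul]⟩
      | add x y _ _ hx hy =>
        obtain ⟨a, ha⟩ := hx
        obtain ⟨b, hb⟩ := hy
        exact ⟨a + b, by rw [map_add, ha, hb, add_tmul]⟩
      | smul b z _ hz =>
        obtain ⟨a, ha⟩ := hz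
        refine ⟨b • a, ?_⟩
        have h1 : ∀ a : B' ⊗[B] P, h (b • a) = (algebraMap B' S' b) • h a := by
          intro a
          induction a using TensorProduct.induction_on with
          | zero => simp
          | tmul c m => rw [TensorProduct.smul_tmul', hht, hht, smul_eq_mul, map_mul,
              TensorProduct.smul_tmul', smul_eq_mul]
          | add x y hx hy => rw [smul_add, map_add, hx, hy, map_add, smul_add]
        rw [h1, ha, TensorProduct.smul_tmul', smul_eq_mul, Algebra.smul_def]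
  have hg : Function.Bijective g := by
    constructor
    · intro y y' hyy
      obtain ⟨x, rfl⟩ := hsurj y
      obtain ⟨x', rfl⟩ := hsurj y'
      rw [hgh, hgh] at hyy
      rw [hb.1 hyy]
    · intro p
      obtain ⟨x, rfl⟩ := hb.2 p
      exact ⟨h x, hgh x⟩
  exact Module.Invertible.congr (LinearEquiv.ofBijective g hg)

end abs

variable {k : Type u} [Field k] {X : TwoChart k} {B : Type u} [CommRing B] [Algebra k B]
  (L : PreLD X B) (B' : Type u) [CommRing B'] [Algebra k B'] [Algebra B B'] [IsScalarTower k B B']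

/-- `B ⊗ A0 → B' ⊗ A0` -/
@[reducible] noncomputable def bcAlg (A0 : Subalgebra k X.A) : Algebra (B ⊗[k] A0) (B' ⊗[k] A0) :=
  (Algebra.TensorProduct.map (IsScalarTower.toAlgHom k B B') (AlgHom.id k A0)).toRingHom.toAlgebra

section zero

/-- `M0' → M0` -/
def e0 : L.M0' ≃ₗ[B] L.M0 where
  toFun := fun m => ⟨m, m.2⟩
  invFun := fun m => ⟨m, m.2⟩
  map_add' := fun _ _ => rfl
  map_smul' := fun _ _ => rfl
  left_inv := fun _ => rfl
  right_inv := fun _ => rfl

/-- `M0 → B' ⊗ M0` -/
noncomputable def f0 : L.M0' →+ (L.baseChange B').M0' where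
  toFun := fun m => ⟨(1 : B') ⊗ₜ[B] (m : L.M), Submodule.tmul_mem_baseChange_of_mem _ m.2⟩
  map_zero' := Subtype.ext (tmul_zero _ _)
  map_add' := fun _ _ => Subtype.ext (tmul_add _ _ _)

/-- `B' ⊗ M0 → (B' ⊗ M0)'` -/
noncomputable def F0 : B' ⊗[B] L.M0' →+ (L.baseChange B').M0' :=
  ((e0 (L.baseChange B')).symm.toLinearMap.toAddMonoidHom.comp
    (JF.tb0 B' L).toAddMonoidHom).comp (LinearMap.lTensor B' (e0 L).toLinearMap).toAddMonoidHom

theorem F0_tmul (b : B') (m : L.M0') : F0 L B' (b ⊗ₜ m) = b • f0 L B' m := by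
  apply Subtype.ext
  show b ⊗ₜ[B] (m : L.M) = b • ((1 : B') ⊗ₜ[B] (m : L.M))
  rw [TensorProduct.smul_tmul', smul_eq_mul, mul_one]

theorem F0_bijective (hL : L.IsLine) : Function.Bijective (F0 L B') :=
  ((e0 (L.baseChange B')).symm.bijective.comp (JF.tb0_bijective B' hL)).comp
    (LinearEquiv.lTensor B' (e0 L)).bijective

theorem f0_smul (s : B ⊗[k] X.A0) (m : L.M0') :
    f0 L B' (s • m) = (bcAlg B' X.A0).algebraMap s • f0 L B' m := by
  letI : Algebra (B ⊗[k] X.A0) (B' ⊗[k] X.A0) := bcAlg B' X.A0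
  show f0 L B' (s • m) = algebraMap (B ⊗[k] X.A0) (B' ⊗[k] X.A0) s • f0 L B' m
  have hmap : ∀ (b : B) (a : X.A0), algebraMap (B ⊗[k] X.A0) (B' ⊗[k] X.A0) (b ⊗ₜ a) =
      algebraMap B B' b ⊗ₜ a := fun _ _ => rfl
  induction s using TensorProduct.induction_on with
  | zero =>
    rw [map_zero]
    have h1 : (0 : B ⊗[k] X.A0) • m = 0 := zero_smul (B ⊗[k] X.A0) m
    have h2 : (0 : B' ⊗[k] X.A0) • f0 L B' m = 0 := zero_smul (B' ⊗[k] X.A0) (f0 L B' m)
    rw [h1, h2, map_zero]
  | tmul b a =>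
    rw [hmap]
    apply Subtype.ext
    show (1 : B') ⊗ₜ[B] (b • (a : X.A) • (m : L.M)) =
      (algebraMap B B' b) • ((1 : B') ⊗ₜ[B] ((a : X.A) • (m : L.M)))
    rw [TensorProduct.tmul_smul, algebraMap_smul]
  | add x y hx hy =>
    have h1 : (x + y) • m = x • m + y • m := add_smul _ _ _
    rw [map_add, h1, add_smul, map_add, hx, hy]

theorem mem_span_bcAlg (A0 : Subalgebra k X.A) (z : B' ⊗[k] A0) :
    letI := bcAlg (B := B) B' A0
    z ∈ Submodule.span B' (Set.range (algebraMap (B ⊗[k] A0) (B' ⊗[k] A0))) := by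
  letI := bcAlg (B := B) B' A0
  induction z using TensorProduct.induction_on with
  | zero => exact Submodule.zero_mem _
  | tmul b a =>
    have : b ⊗ₜ[k] a = b • (algebraMap (B ⊗[k] A0) (B' ⊗[k] A0) (1 ⊗ₜ a)) := by
      show _ = b • (algebraMap B B' 1 ⊗ₜ[k] a)
      rw [map_one, TensorProduct.smul_tmul', smul_eq_mul, mul_one]
    rw [this]
    exact Submodule.smul_mem _ _ (Submodule.subset_span ⟨_, rfl⟩)
  | add x y hx hy => exact Submodule.add_mem _ hx hy

theorem inv0_baseChange (hL : L.IsLine) :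
    Module.Invertible (B' ⊗[k] X.A0) (L.baseChange B').M0' := by
  letI : Algebra (B ⊗[k] X.A0) (B' ⊗[k] X.A0) := bcAlg B' X.A0
  haveI := hL.inv0
  exact invertible_of_baseChange (B := B) (B' := B') (S := B ⊗[k] X.A0) (P := L.M0')
    (fun b => rfl) (mem_span_bcAlg B' X.A0) (f0 L B') (f0_smul L B') (F0 L B') (F0_tmul L B')
    (F0_bijective L B' hL)

end zero

section one

/-- `M1' → M1` -/
def e1 : L.M1' ≃ₗ[B] L.M1 where
  toFun := fun m => ⟨m, m.2⟩
  invFun := fun m => ⟨m, m.2⟩
  map_add' := fun _ _ => rfl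
  map_smul' := fun _ _ => rfl
  left_inv := fun _ => rfl
  right_inv := fun _ => rfl

/-- `M1 → B' ⊗ M1` -/
noncomputable def f1 : L.M1' →+ (L.baseChange B').M1' where
  toFun := fun m => ⟨(1 : B') ⊗ₜ[B] (m : L.M), Submodule.tmul_mem_baseChange_of_mem _ m.2⟩
  map_zero' := Subtype.ext (tmul_zero _ _)
  map_add' := fun _ _ => Subtype.ext (tmul_add _ _ _)

/-- `B' ⊗ M1 → (B' ⊗ M1)'` -/
noncomputable def F1 : B' ⊗[B] L.M1' →+ (L.baseChange B').M1' :=
  ((e1 (L.baseChange B')).symm.toLinearMap.toAddMonoidHom.comp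
    (JF.tb1 B' L).toAddMonoidHom).comp (LinearMap.lTensor B' (e1 L).toLinearMap).toAddMonoidHom

theorem F1_tmul (b : B') (m : L.M1') : F1 L B' (b ⊗ₜ m) = b • f1 L B' m := by
  apply Subtype.ext
  show b ⊗ₜ[B] (m : L.M) = b • ((1 : B') ⊗ₜ[B] (m : L.M))
  rw [TensorProduct.smul_tmul', smul_eq_mul, mul_one]

theorem F1_bijective (hL : L.IsLine) : Function.Bijective (F1 L B') :=
  ((e1 (L.baseChange B')).symm.bijective.comp (JF.tb1_bijective B' hL)).comp
    (LinearEquiv.lTensor B' (e1 L)).bijective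

theorem f1_smul (s : B ⊗[k] X.A1) (m : L.M1') :
    f1 L B' (s • m) = (bcAlg B' X.A1).algebraMap s • f1 L B' m := by
  letI : Algebra (B ⊗[k] X.A1) (B' ⊗[k] X.A1) := bcAlg B' X.A1
  show f1 L B' (s • m) = algebraMap (B ⊗[k] X.A1) (B' ⊗[k] X.A1) s • f1 L B' m
  have hmap : ∀ (b : B) (a : X.A1), algebraMap (B ⊗[k] X.A1) (B' ⊗[k] X.A1) (b ⊗ₜ a) =
      algebraMap B B' b ⊗ₜ a := fun _ _ => rfl
  induction s using TensorProduct.induction_on with
  | zero =>
    rw [map_zero]
    have h1 : (0 : B ⊗[k] X.A1) • m = 0 := zero_smul (B ⊗[k] X.A1) m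
    have h2 : (0 : B' ⊗[k] X.A1) • f1 L B' m = 0 := zero_smul (B' ⊗[k] X.A1) (f1 L B' m)
    rw [h1, h2, map_zero]
  | tmul b a =>
    rw [hmap]
    apply Subtype.ext
    show (1 : B') ⊗ₜ[B] (b • (a : X.A) • (m : L.M)) =
      (algebraMap B B' b) • ((1 : B') ⊗ₜ[B] ((a : X.A) • (m : L.M)))
    rw [TensorProduct.tmul_smul, algebraMap_smul]
  | add x y hx hy =>
    have h1 : (x + y) • m = x • m + y • m := add_smul _ _ _
    rw [map_add, h1, add_smul, map_add, hx, hy]

theorem inv1_baseChange (hL : L.IsLine) :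
    Module.Invertible (B' ⊗[k] X.A1) (L.baseChange B').M1' := by
  letI : Algebra (B ⊗[k] X.A1) (B' ⊗[k] X.A1) := bcAlg B' X.A1
  haveI := hL.inv1
  exact invertible_of_baseChange (B := B) (B' := B') (S := B ⊗[k] X.A1) (P := L.M1')
    (fun b => rfl) (mem_span_bcAlg B' X.A1) (f1 L B') (f1_smul L B') (F1 L B') (F1_tmul L B')
    (F1_bijective L B' hL)

end one

/-- **base change of a line datum is a line datum** -/
theorem isLine_baseChange (hL : L.IsLine) : (L.baseChange B').IsLine :=
  ⟨inv0_baseChange L B' hL, inv1_baseChange L B' hL⟩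

end Fermat.Agent.JPic
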