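import Fermat.Agent.JPC.Base

/-!
# Base change of line data in stages
-/

set_option autoImplicit false

universe u

open TensorProduct

namespace Fermat.Agent.JPic

open Fermat.Agent.JPC

section abs

variable {B M B' B'' : Type*} [CommRing B] [AddCommGroup M] [Module B M] [CommRing B']
  [Algebra B B'] [CommRing B''] [Algebra B B''] [Algebra B' B''] [IsScalarTower B B' B'']

theorem map_cancel_baseChange (P : Submodule B M) :
    ((P.baseChange B').baseChange B'').map
      (TensorProduct.AlgebraTensorModule.cancelBaseChange B B' B'' B'' M : _ →ₗ[B''] _) =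
      P.baseChange B'' := by
  apply le_antisymm
  · rw [Submodule.map_le_iff_le_comap, Submodule.baseChange_eq_span,
      Submodule.span_le]
    rintro _ ⟨z, hz, rfl⟩
    rw [Submodule.baseChange_eq_span] at hz
    show (TensorProduct.AlgebraTensorModule.cancelBaseChange B B' B'' B'' M)
      ((1 : B'') ⊗ₜ[B'] z) ∈ P.baseChange B''
    induction hz using Submodule.span_induction with
    | mem z hz =>
      obtain ⟨m, hm, rfl⟩ := hz
      rw [TensorProduct.mk_apply, TensorProduct.AlgebraTensorModule.cancelBaseChange_tmul]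
      exact Submodule.tmul_mem_baseChange_of_mem _ hm
    | zero => rw [tmul_zero, map_zero]; exact Submodule.zero_mem _
    | add x y _ _ hx hy => rw [tmul_add, map_add]; exact Submodule.add_mem _ hx hy
    | smul b x _ hx =>
      have : (1 : B'') ⊗ₜ[B'] (b • x) = (algebraMap B' B'' b) • ((1 : B'') ⊗ₜ[B'] x) := by
        rw [← TensorProduct.smul_tmul, TensorProduct.smul_tmul', Algebra.smul_def, smul_eq_mul]
      rw [this, map_smul]
      exact Submodule.smul_mem _ _ hx
  · rw [Submodule.baseChange_eq_span, Submodule.span_le]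
    rintro _ ⟨m, hm, rfl⟩
    refine ⟨(1 : B'') ⊗ₜ[B'] ((1 : B') ⊗ₜ[B] m), ?_, ?_⟩
    · exact Submodule.tmul_mem_baseChange_of_mem _ (Submodule.tmul_mem_baseChange_of_mem _ hm)
    · show (TensorProduct.AlgebraTensorModule.cancelBaseChange B B' B'' B'' M)
        ((1 : B'') ⊗ₜ[B'] ((1 : B') ⊗ₜ[B] m)) = (1 : B'') ⊗ₜ[B] m
      rw [TensorProduct.AlgebraTensorModule.cancelBaseChange_tmul, one_smul]

end abs

variable {k : Type u} [Field k] {X : TwoChart k} {B : Type u} [CommRing B] [Algebra k B]
  (L : PreLD X B) (B' : Type u) [CommRing B'] [Algebra k B'] [Algebra B B'] [IsScalarTower k B B']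
  (B'' : Type u) [CommRing B''] [Algebra k B''] [Algebra B B''] [IsScalarTower k B B'']
  [Algebra B' B''] [IsScalarTower B B' B''] [IsScalarTower k B' B'']

/-- base change in stages -/
noncomputable def isoTower : ((L.baseChange B').baseChange B'').Iso (L.baseChange B'') where
  e := TensorProduct.AlgebraTensorModule.cancelBaseChange B B' B'' B'' L.M
  smul a m := by
    show (TensorProduct.AlgebraTensorModule.cancelBaseChange B B' B'' B'' L.M)
      (((L.baseChange B').actA a).baseChange B'' m) =
      (L.actA a).baseChange B''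
        ((TensorProduct.AlgebraTensorModule.cancelBaseChange B B' B'' B'' L.M) m)
    have h : (TensorProduct.AlgebraTensorModule.cancelBaseChange B B' B'' B'' L.M :
        B'' ⊗[B'] (B' ⊗[B] L.M) →ₗ[B''] B'' ⊗[B] L.M) ∘ₗ (((L.baseChange B').actA a).baseChange B'') =
        ((L.actA a).baseChange B'') ∘ₗ
        (TensorProduct.AlgebraTensorModule.cancelBaseChange B B' B'' B'' L.M :
        B'' ⊗[B'] (B' ⊗[B] L.M) →ₗ[B''] B'' ⊗[B] L.M) := by
      apply TensorProduct.AlgebraTensorModule.curry_injective
      apply LinearMap.ext_ring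
      apply TensorProduct.AlgebraTensorModule.curry_injective
      apply LinearMap.ext_ring
      ext m
      show (TensorProduct.AlgebraTensorModule.cancelBaseChange B B' B'' B'' L.M)
        ((1 : B'') ⊗ₜ[B'] ((1 : B') ⊗ₜ[B] (a • m))) = (L.actA a).baseChange B''
        ((TensorProduct.AlgebraTensorModule.cancelBaseChange B B' B'' B'' L.M)
          ((1 : B'') ⊗ₜ[B'] ((1 : B') ⊗ₜ[B] m)))
      rw [TensorProduct.AlgebraTensorModule.cancelBaseChange_tmul,
        TensorProduct.AlgebraTensorModule.cancelBaseChange_tmul, one_smul]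
      rfl
    exact LinearMap.congr_fun h m
  map0 := map_cancel_baseChange L.M0
  map1 := map_cancel_baseChange L.M1

end Fermat.Agent.JPic
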