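import Fermat.Agent.JPic.WFin
import Fermat.Agent.JPic.LineBC
import Fermat.Agent.JPic.Tower
import Fermat.Agent.JH.IsoLD
import Fermat.Agent.JG4.Rig

/-!
# The chart condition and base change
-/

set_option autoImplicit false

universe u

open TensorProduct

namespace Fermat.Agent.JPic

open Fermat.Agent.JPC Fermat.Agent.JPC.PreLD

variable {k : Type u} [Field k] {X : TwoChart k} {B : Type u} [CommRing B] [Algebra k B]
  {L : PreLD X B} (B' : Type u) [CommRing B'] [Algebra k B'] [Algebra B B'] [IsScalarTower k B B']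

theorem coord_apply (hc : L.Acyclic) (r : L.Rig) (ι : Idx X) (w : L.W) (i : Fin X.d) :
    hc.coord r ι w i = r.lam (hc.p0 (ι.c i • (w : L.M))) := rfl

/-- the chart condition does not depend on the rigidification -/
theorem bijective_coord_rig (hL : L.IsLine) (hc : L.Acyclic) (r r' : L.Rig) (ι : Idx X)
    (h : Function.Bijective (hc.coord r ι)) : Function.Bijective (hc.coord r' ι) := by
  obtain ⟨u, hu⟩ := JG4.exists_unit_rig hL.inv0 r r'
  have h1 : ∀ w, hc.coord r' ι w = u • hc.coord r ι w := by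
    intro w
    funext i
    rw [Pi.smul_apply, coord_apply, coord_apply, hu, Units.smul_def, smul_eq_mul]
  have h2 : (hc.coord r' ι : L.W → (Fin X.d → B)) = (fun v => u • v) ∘ hc.coord r ι :=
    funext h1
  rw [h2]
  exact (MulAction.bijective u).comp h

theorem inChart_iff (hL : L.IsLine) (r : L.Rig) (ι : Idx X) :
    L.InChart ι ↔ ∃ hc : L.Acyclic, Function.Bijective (hc.coord r ι) := by
  constructor
  · rintro ⟨hc, r', hb⟩
    exact ⟨hc, bijective_coord_rig hL hc r' r ι hb⟩
  · rintro ⟨hc, hb⟩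
    exact ⟨hc, r, hb⟩

theorem p0_apply_of_mem (hc : L.Acyclic) {m : L.M} (p : L.M0) (hq : m - p ∈ L.M1) :
    hc.p0 m = p := by
  have h1 : m = (p : L.M) + (⟨m - p, hq⟩ : L.M1) := by simp
  have h2 := Submodule.projectionOnto_apply_left hc p
  have h3 := Submodule.projectionOnto_apply_right hc ⟨m - p, hq⟩
  show Submodule.projectionOnto L.M0 L.M1 hc m = p
  rw [h1, map_add, h2]
  have h4 : (Submodule.projectionOnto L.M0 L.M1 hc) ((⟨m - p, hq⟩ : L.M1) : L.M) = 0 := h3
  rw [h4, add_zero]

theorem sub_p0_mem (hc : L.Acyclic) (m : L.M) : m - (hc.p0 m : L.M) ∈ L.M1 := by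
  obtain ⟨p, hp, q, hq, rfl⟩ := Submodule.mem_sup.1 (show m ∈ L.M0 ⊔ L.M1 by
    rw [hc.sup_eq_top]; trivial)
  have h1 : hc.p0 (p + q) = ⟨p, hp⟩ := p0_apply_of_mem hc ⟨p, hp⟩ (by simpa using hq)
  rw [h1]
  simpa using hq

/-- the projection commutes with base change -/
theorem p0_baseChange (hc : L.Acyclic) (hc' : (L.baseChange B').Acyclic) (b : B') (m : L.M) :
    hc'.p0 (b ⊗ₜ[B] m : B' ⊗[B] L.M) = ⟨b ⊗ₜ[B] (hc.p0 m : L.M),
      Submodule.tmul_mem_baseChange_of_mem _ (hc.p0 m).2⟩ := by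
  apply p0_apply_of_mem
  show b ⊗ₜ[B] m - b ⊗ₜ[B] (hc.p0 m : L.M) ∈ L.M1.baseChange B'
  rw [← tmul_sub]
  exact Submodule.tmul_mem_baseChange_of_mem _ (sub_p0_mem hc m)

/-- `B' ⊗ W → W'` -/
noncomputable def bcWL (L : PreLD X B) : B' ⊗[B] L.W →ₗ[B'] (L.baseChange B').W :=
  JF.bcW (τ := L.τ) (τ' := (L.baseChange B').τ) (P := L.M0) (Q := L.M1) (fun _ => rfl)

theorem coe_bcWL_tmul (b : B') (w : L.W) :
    ((bcWL B' L (b ⊗ₜ w) : (L.baseChange B').W) : (L.baseChange B').M) = b ⊗ₜ[B] (w : L.M) := rfl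

theorem bcWL_bijective (hc : L.Acyclic) : Function.Bijective (bcWL B' L) :=
  JF.bcW_bijective (JF.lat L) hc _

theorem coord_baseChange (hL : L.IsLine) (hc : L.Acyclic) (hc' : (L.baseChange B').Acyclic)
    (r : L.Rig) (ι : Idx X) :
    (hc'.coord (JF.rigBC B' hL r) ι) ∘ₗ (bcWL B' L) =
      (TensorProduct.piScalarRight B B' B' (Fin X.d) : _ →ₗ[B'] _) ∘ₗ
        (hc.coord r ι).baseChange B' := by
  apply TensorProduct.AlgebraTensorModule.curry_injective
  apply LinearMap.ext_ring
  ext w i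
  show hc'.coord (JF.rigBC B' hL r) ι (bcWL B' L (1 ⊗ₜ w)) i =
    (TensorProduct.piScalarRight B B' B' (Fin X.d)) ((1 : B') ⊗ₜ[B] (hc.coord r ι w)) i
  rw [coord_apply]
  have h1 : (ι.c i • ((bcWL B' L (1 ⊗ₜ w) : (L.baseChange B').W) : (L.baseChange B').M)) =
    ((1 : B') ⊗ₜ[B] (ι.c i • (w : L.M)) : B' ⊗[B] L.M) := rfl
  rw [h1, p0_baseChange B' hc hc', JF.rigBC_lam_tmul, one_mul, TensorProduct.piScalarRight_apply,
    TensorProduct.piScalarRightHom_tmul]
  beta_reduce
  rw [Algebra.smul_def, mul_one]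
  rfl

theorem bijective_coord_baseChange (hL : L.IsLine) (hc : L.Acyclic)
    (hc' : (L.baseChange B').Acyclic) (r : L.Rig) (ι : Idx X) :
    Function.Bijective (hc'.coord (JF.rigBC B' hL r) ι) ↔
      Function.Bijective ((hc.coord r ι).baseChange B') := by
  have h := coord_baseChange B' hL hc hc' r ι
  have h1 : (hc'.coord (JF.rigBC B' hL r) ι : _ → _) ∘ (bcWL B' L) =
      (TensorProduct.piScalarRight B B' B' (Fin X.d)) ∘ ((hc.coord r ι).baseChange B') := by
    funext z
    exact LinearMap.congr_fun h z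
  have h2 := Function.Bijective.of_comp_iff (hc'.coord (JF.rigBC B' hL r) ι : _ → _)
    (bcWL_bijective B' hc)
  have h3 := Function.Bijective.of_comp_iff'
    (TensorProduct.piScalarRight B B' B' (Fin X.d)).bijective ((hc.coord r ι).baseChange B')
  rw [← h2, h1]
  exact h3

/-- **over the acyclic locus the chart condition is the bijectivity of a base change** -/
theorem inChart_baseChange_iff (hL : L.IsLine) (hc : L.Acyclic) (r : L.Rig) (ι : Idx X) :
    (L.baseChange B').InChart ι ↔ Function.Bijective ((hc.coord r ι).baseChange B') := by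
  rw [inChart_iff (isLine_baseChange L B' hL) (JF.rigBC B' hL r) ι]
  constructor
  · rintro ⟨hc', hb⟩
    exact (bijective_coord_baseChange B' hL hc hc' r ι).1 hb
  · intro hb
    exact ⟨acyclic_baseChange L B' hc hL,
      (bijective_coord_baseChange B' hL hc (acyclic_baseChange L B' hc hL) r ι).2 hb⟩

/-- **the chart condition is stable under base change** -/
theorem inChart_baseChange (hL : L.IsLine) {ι : Idx X} (h : L.InChart ι) :
    (L.baseChange B').InChart ι := by
  obtain ⟨hc, r, hb⟩ := h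
  rw [inChart_baseChange_iff B' hL hc r ι]
  exact bijective_baseChange _ hb B'

section tower

variable (B'' : Type u) [CommRing B''] [Algebra k B''] [Algebra B B''] [IsScalarTower k B B'']
  [Algebra B' B''] [IsScalarTower B B' B''] [IsScalarTower k B' B'']

theorem inChart_tower_iff {ι : Idx X} : ((L.baseChange B').baseChange B'').InChart ι ↔
    (L.baseChange B'').InChart ι :=
  ⟨JH.inChart_iso (isoTower L B' B''), JH.inChart_iso (JH.isoSymm (isoTower L B' B''))⟩

theorem inChart_tower (hL : L.IsLine) {ι : Idx X} (h : (L.baseChange B').InChart ι) :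
    (L.baseChange B'').InChart ι :=
  (inChart_tower_iff B' B'').1 (inChart_baseChange B'' (isLine_baseChange L B' hL) h)

theorem acyclic_tower_iff : ((L.baseChange B').baseChange B'').Acyclic ↔
    (L.baseChange B'').Acyclic :=
  ⟨JH.acyclic_iso (isoTower L B' B''), JH.acyclic_iso (JH.isoSymm (isoTower L B' B''))⟩

end tower

end Fermat.Agent.JPic
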