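import Fermat.Agent.JPic.CoordBC

/-!
# Block F: the chart condition is open, defined by an ideal, compatible with base change
-/

set_option autoImplicit false

universe u

open TensorProduct

namespace Fermat.Agent.JPic

open Fermat.Agent.JPC Fermat.Agent.JPC.PreLD

variable {k : Type u} [Field k] {X : TwoChart k} {B : Type u} [CommRing B] [Algebra k B]
  (L : PreLD X B)

/-- the ideal of the chart locus -/
def chIdeal (ι : Idx X) : Ideal B :=
  Ideal.span {f : B | (L.baseChange (Localization.Away f)).InChart ι}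

section

variable {L}

theorem inChart_of_away (hL : L.IsLine) {ι : Idx X} (f : B)
    (h : (L.baseChange (Localization.Away f)).InChart ι) (B' : Type u) [CommRing B'] [Algebra k B']
    [Algebra B B'] [IsScalarTower k B B'] (hu : IsUnit (algebraMap B B' f)) :
    (L.baseChange B').InChart ι := by
  let ψ : Localization.Away f →+* B' := IsLocalization.Away.lift f hu
  letI : Algebra (Localization.Away f) B' := ψ.toAlgebra
  haveI : IsScalarTower B (Localization.Away f) B' := IsScalarTower.of_algebraMap_eq fun x => by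
    rw [RingHom.algebraMap_toAlgebra]
    exact (IsLocalization.Away.lift_eq f hu x).symm
  haveI : IsScalarTower k (Localization.Away f) B' := IsScalarTower.of_algebraMap_eq fun x => by
    rw [IsScalarTower.algebraMap_apply k B (Localization.Away f),
      ← IsScalarTower.algebraMap_apply B (Localization.Away f) B',
      ← IsScalarTower.algebraMap_apply k B B']
  exact inChart_tower (Localization.Away f) B' hL h

theorem inChart_of_map_chIdeal (hL : L.IsLine) (r : L.Rig) (ι : Idx X) (B' : Type u) [CommRing B']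
    [Algebra k B'] [Algebra B B'] [IsScalarTower k B B']
    (h : (chIdeal L ι).map (algebraMap B B') = ⊤) : (L.baseChange B').InChart ι := by
  have hL' := isLine_baseChange L B' hL
  have hloc : ∀ (m : Ideal B') [m.IsMaximal],
      ((L.baseChange B').baseChange (Localization.AtPrime m)).InChart ι := by
    intro m hm
    obtain ⟨f, hf, hfm⟩ := exists_notMem_of_map_eq_top _ B' h m (Ideal.IsMaximal.ne_top hm)
    rw [inChart_tower_iff B' (Localization.AtPrime m)]
    refine inChart_of_away hL f hf (Localization.AtPrime m) ?_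
    rw [IsScalarTower.algebraMap_apply B B' (Localization.AtPrime m)]
    exact IsLocalization.map_units (Localization.AtPrime m) (⟨_, hfm⟩ : m.primeCompl)
  have hc' : (L.baseChange B').Acyclic := by
    refine (isCompl_iff_bijective _ _).2 (bijective_of_locally _ fun m _ => ?_)
    exact (acyclic_iff (L.baseChange B') _ hL').1 (hloc m).choose
  refine ⟨hc', JF.rigBC B' hL r, bijective_of_locally _ fun m _ => ?_⟩
  exact (inChart_baseChange_iff _ hL' hc' (JF.rigBC B' hL r) ι).1 (hloc m)

theorem map_chIdeal_of_inChart (hL : L.IsLine) (r : L.Rig) (ι : Idx X) (B' : Type u) [CommRing B']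
    [Algebra k B'] [Algebra B B'] [IsScalarTower k B B']
    (h : (L.baseChange B').InChart ι) : (chIdeal L ι).map (algebraMap B B') = ⊤ := by
  refine map_eq_top_of_forall_prime _ B' fun m hm => ?_
  let _ := Ideal.Quotient.field m
  have hK : (L.baseChange (B' ⧸ m)).InChart ι := inChart_tower B' (B' ⧸ m) hL h
  let p : PrimeSpectrum B := ⟨m.comap (algebraMap B B'), inferInstance⟩
  have hp : p.asIdeal = RingHom.ker (algebraMap B (B' ⧸ m)) := by
    rw [IsScalarTower.algebraMap_eq B B' (B' ⧸ m), ← RingHom.comap_ker, Ideal.Quotient.algebraMap_eq,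
      Ideal.mk_ker]
  have hpm : ∀ x : B, algebraMap B B' x ∉ m ↔ IsUnit (algebraMap B (B' ⧸ m) x) := by
    intro x
    rw [isUnit_iff_ne_zero, ne_eq, ← RingHom.mem_ker, ← hp]
    rfl
  have hcK : (L.baseChange (B' ⧸ m)).Acyclic := hK.choose
  rw [acyclic_field_iff L hL (B' ⧸ m) p hp] at hcK
  obtain ⟨f₁, hf₁, h₁⟩ := acyclic_open L hL p hcK
  let B₁ := Localization.Away f₁
  have hu₁ : IsUnit (algebraMap B B₁ f₁) := IsLocalization.Away.algebraMap_isUnit f₁
  have hc₁ : (L.baseChange B₁).Acyclic := h₁ B₁ hu₁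
  have hL₁ : (L.baseChange B₁).IsLine := isLine_baseChange L B₁ hL
  let r₁ := JF.rigBC B₁ hL r
  have huK : IsUnit (algebraMap B (B' ⧸ m) f₁) := (hpm f₁).1 hf₁
  letI : Algebra B₁ (B' ⧸ m) :=
    (IsLocalization.Away.lift f₁ huK : Localization.Away f₁ →+* (B' ⧸ m)).toAlgebra
  haveI : IsScalarTower B B₁ (B' ⧸ m) := IsScalarTower.of_algebraMap_eq fun x => by
    rw [RingHom.algebraMap_toAlgebra]
    exact (IsLocalization.Away.lift_eq f₁ huK x).symm
  haveI : IsScalarTower k B₁ (B' ⧸ m) := IsScalarTower.of_algebraMap_eq fun x => by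
    rw [IsScalarTower.algebraMap_apply k B B₁, ← IsScalarTower.algebraMap_apply B B₁ (B' ⧸ m),
      ← IsScalarTower.algebraMap_apply k B (B' ⧸ m)]
  have hK₁ : Function.Bijective ((hc₁.coord r₁ ι).baseChange (B' ⧸ m)) :=
    (inChart_baseChange_iff (B' ⧸ m) hL₁ hc₁ r₁ ι).1 ((inChart_tower_iff B₁ (B' ⧸ m)).2 hK)
  let p₁ : PrimeSpectrum B₁ :=
    ⟨RingHom.ker (algebraMap B₁ (B' ⧸ m)), RingHom.ker_isPrime _⟩
  rw [bijective_residueField_iff (hc₁.coord r₁ ι) (B' ⧸ m) p₁ rfl] at hK₁
  haveI := finite_W (L.baseChange B₁) hL₁ hc₁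
  obtain ⟨g, hg, hb⟩ := exists_bijective_baseChange (hc₁.coord r₁ ι) ⊤ Module.Finite.fg_top le_top
    p₁ hK₁
  obtain ⟨⟨a, s⟩, has⟩ := IsLocalization.surj (Submonoid.powers f₁) g
  obtain ⟨n, hn⟩ := s.2
  have hs : algebraMap B B₁ s = (algebraMap B B₁ f₁) ^ n := by
    rw [← map_pow]
    exact congrArg _ hn.symm
  have has' : g * (algebraMap B B₁ f₁) ^ n = algebraMap B B₁ a := by
    rw [← hs]
    exact has
  have hga : IsUnit (algebraMap B (B' ⧸ m) a) := by
    have h1 := congrArg (algebraMap B₁ (B' ⧸ m)) has'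
    rw [map_mul, map_pow, ← IsScalarTower.algebraMap_apply B B₁ (B' ⧸ m),
      ← IsScalarTower.algebraMap_apply B B₁ (B' ⧸ m)] at h1
    rw [← h1]
    refine IsUnit.mul ?_ (huK.pow n)
    rw [isUnit_iff_ne_zero]
    exact hg
  refine ⟨f₁ * a, ?_, ?_⟩
  · show (L.baseChange (Localization.Away (f₁ * a))).InChart ι
    let Bf := Localization.Away (f₁ * a)
    have huf : IsUnit (algebraMap B Bf (f₁ * a)) := IsLocalization.Away.algebraMap_isUnit (f₁ * a)
    rw [map_mul] at huf
    have huf₁ : IsUnit (algebraMap B Bf f₁) := isUnit_of_mul_isUnit_left huf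
    have hufa : IsUnit (algebraMap B Bf a) := isUnit_of_mul_isUnit_right huf
    letI : Algebra B₁ Bf :=
      (IsLocalization.Away.lift f₁ huf₁ : Localization.Away f₁ →+* Bf).toAlgebra
    haveI : IsScalarTower B B₁ Bf := IsScalarTower.of_algebraMap_eq fun x => by
      rw [RingHom.algebraMap_toAlgebra]
      exact (IsLocalization.Away.lift_eq f₁ huf₁ x).symm
    haveI : IsScalarTower k B₁ Bf := IsScalarTower.of_algebraMap_eq fun x => by
      rw [IsScalarTower.algebraMap_apply k B B₁, ← IsScalarTower.algebraMap_apply B B₁ Bf,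
        ← IsScalarTower.algebraMap_apply k B Bf]
    have hug : IsUnit (algebraMap B₁ Bf g) := by
      have h1 := congrArg (algebraMap B₁ Bf) has'
      rw [map_mul, ← IsScalarTower.algebraMap_apply B B₁ Bf] at h1
      rw [← h1] at hufa
      exact isUnit_of_mul_isUnit_left hufa
    have h2 := hb Bf hug
    rw [← inChart_baseChange_iff Bf hL₁ hc₁ r₁ ι] at h2
    exact (inChart_tower_iff B₁ Bf).1 h2
  · rw [hpm, map_mul]
    exact huK.mul hga

/-- **the chart locus is the open subscheme defined by `chIdeal`, after any base change.** -/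
theorem inChart_baseChange_iff_chIdeal (hL : L.IsLine) (r : L.Rig) (ι : Idx X) (B' : Type u)
    [CommRing B'] [Algebra k B'] [Algebra B B'] [IsScalarTower k B B'] :
    (L.baseChange B').InChart ι ↔ (chIdeal L ι).map (algebraMap B B') = ⊤ :=
  ⟨map_chIdeal_of_inChart hL r ι B', inChart_of_map_chIdeal hL r ι B'⟩

end

/-- **block F** -/
theorem fStmt (X : TwoChart k) : FStmt X := by
  intro B _ _ L hL hr ι
  obtain ⟨r⟩ := hr
  exact ⟨chIdeal L ι, fun B' _ _ _ _ => inChart_baseChange_iff_chIdeal hL r ι B'⟩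

end Fermat.Agent.JPic
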