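import Mathlib

/-!
# Openness of the locus where a linear map is bijective (no Noetherian hypothesis)

`φ : X →ₗ[B] Y` with `Y` projective, finite cokernel and kernel contained in a finitely
generated submodule.
-/

set_option autoImplicit false

namespace Fermat.Agent.JPic

open TensorProduct

section Split

variable {B X Y : Type*} [CommRing B] [AddCommGroup X] [Module B X] [AddCommGroup Y] [Module B Y]

theorem ker_fg_of_le (φ : X →ₗ[B] Y) (hφ : Function.Surjective φ) [Module.Projective B Y]
    (G : Submodule B X) (hG : G.FG) (hk : LinearMap.ker φ ≤ G) : (LinearMap.ker φ).FG := by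
  obtain ⟨s, hs⟩ := Module.projective_lifting_property φ LinearMap.id hφ
  have hs' : ∀ y, φ (s y) = y := fun y => by
    have := LinearMap.congr_fun hs y
    simpa using this
  let π : X →ₗ[B] X := LinearMap.id - s ∘ₗ φ
  have hπ : ∀ x, π x = x - s (φ x) := fun x => by simp [π]
  have hπk : ∀ x, π x ∈ LinearMap.ker φ := fun x => by
    rw [LinearMap.mem_ker, hπ, map_sub, hs', sub_self]
  have : LinearMap.ker φ = G.map π := by
    apply le_antisymm
    · intro x hx
      refine ⟨x, hk hx, ?_⟩
      rw [hπ, LinearMap.mem_ker.1 hx, map_zero, sub_zero]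
    · rintro _ ⟨x, -, rfl⟩
      exact hπk x
  rw [this]
  exact hG.map π

/-- if `φ` is surjective onto a projective module then the kernel of the base change is generated
by the kernel. -/
theorem ker_baseChange_le (φ : X →ₗ[B] Y) (hφ : Function.Surjective φ) [Module.Projective B Y]
    (B' : Type*) [CommRing B'] [Algebra B B'] (z : B' ⊗[B] X) (hz : φ.baseChange B' z = 0) :
    z ∈ (LinearMap.ker φ).baseChange B' := by
  obtain ⟨s, hs⟩ := Module.projective_lifting_property φ LinearMap.id hφ
  have hs' : ∀ y, φ (s y) = y := fun y => by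
    have := LinearMap.congr_fun hs y
    simpa using this
  have key : ∀ w : B' ⊗[B] X, w - (s.baseChange B') (φ.baseChange B' w) ∈
      (LinearMap.ker φ).baseChange B' := by
    intro w
    induction w using TensorProduct.induction_on with
    | zero => simp
    | tmul b x =>
      rw [LinearMap.baseChange_tmul, LinearMap.baseChange_tmul, ← TensorProduct.tmul_sub]
      refine Submodule.tmul_mem_baseChange_of_mem _ ?_
      rw [LinearMap.mem_ker, map_sub, hs', sub_self]
    | add u v hu hv =>
      have : u + v - (s.baseChange B') (φ.baseChange B' (u + v)) =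
          (u - (s.baseChange B') (φ.baseChange B' u)) +
          (v - (s.baseChange B') (φ.baseChange B' v)) := by
        simp only [map_add]; abel
      rw [this]
      exact add_mem hu hv
  have := key z
  rwa [hz, map_zero, sub_zero] at this

/-- surjectivity after inverting an element killing the cokernel -/
theorem surjective_baseChange_of_smul_mem (φ : X →ₗ[B] Y) (f : B)
    (hf : ∀ y, f • y ∈ LinearMap.range φ)
    (B' : Type*) [CommRing B'] [Algebra B B'] (hu : IsUnit (algebraMap B B' f)) :
    Function.Surjective (φ.baseChange B') := by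
  intro z
  induction z using TensorProduct.induction_on with
  | zero => exact ⟨0, map_zero _⟩
  | tmul b y =>
    obtain ⟨x, hx⟩ := hf y
    obtain ⟨u, hu'⟩ := hu
    refine ⟨(b * (u⁻¹ : B'ˣ)) ⊗ₜ x, ?_⟩
    rw [LinearMap.baseChange_tmul, hx, TensorProduct.tmul_smul, TensorProduct.smul_tmul']
    congr 1
    rw [Algebra.smul_def, ← hu', mul_comm b, ← mul_assoc]
    simp
  | add u v hu hv =>
    obtain ⟨a, ha⟩ := hu
    obtain ⟨b, hb⟩ := hv
    exact ⟨a + b, by rw [map_add, ha, hb]⟩

/-- bijectivity after inverting an element killing the kernel of a surjection onto a projective. -/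
theorem bijective_baseChange_of_smul_ker (φ : X →ₗ[B] Y) (hφ : Function.Surjective φ)
    [Module.Projective B Y] (f : B) (hf : ∀ x ∈ LinearMap.ker φ, f • x = 0)
    (B' : Type*) [CommRing B'] [Algebra B B'] (hu : IsUnit (algebraMap B B' f)) :
    Function.Bijective (φ.baseChange B') := by
  refine ⟨?_, LinearMap.lTensor_surjective B' hφ⟩
  rw [injective_iff_map_eq_zero]
  intro z hz
  have h1 := ker_baseChange_le φ hφ B' z hz
  have h2 : ∀ w ∈ (LinearMap.ker φ).baseChange B', f • w = 0 := by
    intro w hw
    rw [Submodule.baseChange_eq_span] at hw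
    induction hw using Submodule.span_induction with
    | mem x hx =>
      obtain ⟨y, hy, rfl⟩ := hx
      rw [TensorProduct.mk_apply, ← TensorProduct.tmul_smul, hf y hy, TensorProduct.tmul_zero]
    | zero => simp
    | add x y _ _ hx hy => rw [smul_add, hx, hy, add_zero]
    | smul a x _ hx => rw [smul_comm, hx, smul_zero]
  have h3 := h2 z h1
  obtain ⟨u, hu'⟩ := hu
  have h4 : (algebraMap B B' f) • z = 0 := by
    rwa [algebraMap_smul]
  rw [← hu'] at h4
  have : (u⁻¹ : B'ˣ) • ((u : B') • z) = z := by
    rw [← Units.smul_def, inv_smul_smul]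
  rw [← this, h4, smul_zero]

end Split

section Fibre

variable {B X Y : Type*} [CommRing B] [AddCommGroup X] [Module B X] [AddCommGroup Y] [Module B Y]

/-- base change of a bijection is a bijection -/
theorem bijective_baseChange (φ : X →ₗ[B] Y) (hφ : Function.Bijective φ)
    (B' : Type*) [CommRing B'] [Algebra B B'] : Function.Bijective (φ.baseChange B') := by
  let e := LinearEquiv.ofBijective φ hφ
  have : φ.baseChange B' = (LinearEquiv.baseChange B B' _ _ e : B' ⊗[B] X →ₗ[B'] B' ⊗[B] Y) := by
    apply TensorProduct.AlgebraTensorModule.curry_injective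
    ext x
    simp [e]
  rw [this]
  exact (LinearEquiv.baseChange B B' _ _ e).bijective

/-- base change in stages -/
theorem bijective_baseChange_tower (φ : X →ₗ[B] Y)
    (B' B'' : Type*) [CommRing B'] [Algebra B B'] [CommRing B''] [Algebra B B''] [Algebra B' B'']
    [IsScalarTower B B' B''] :
    Function.Bijective ((φ.baseChange B').baseChange B'') ↔ Function.Bijective (φ.baseChange B'') := by
  let eX : B'' ⊗[B'] (B' ⊗[B] X) ≃ₗ[B''] B'' ⊗[B] X :=
    TensorProduct.AlgebraTensorModule.cancelBaseChange B B' B'' B'' X
  let eY : B'' ⊗[B'] (B' ⊗[B] Y) ≃ₗ[B''] B'' ⊗[B] Y :=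
    TensorProduct.AlgebraTensorModule.cancelBaseChange B B' B'' B'' Y
  have h : (φ.baseChange B'') ∘ₗ (eX : _ →ₗ[B''] _) =
      (eY : _ →ₗ[B''] _) ∘ₗ ((φ.baseChange B').baseChange B'') := by
    apply TensorProduct.AlgebraTensorModule.curry_injective
    ext x
    simp [eX, eY]
  have h' : ∀ z, φ.baseChange B'' (eX z) = eY ((φ.baseChange B').baseChange B'' z) := fun z =>
    LinearMap.congr_fun h z
  constructor
  · intro hb
    have h1 : Function.Bijective (eY ∘ ((φ.baseChange B').baseChange B'')) :=
      eY.bijective.comp hb
    have h2 : (eY ∘ ((φ.baseChange B').baseChange B'')) = (φ.baseChange B'') ∘ eX := by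
      funext z; exact (h' z).symm
    rw [h2] at h1
    exact (Function.Bijective.of_comp_iff _ eX.bijective).1 h1
  · intro hb
    have h1 : Function.Bijective ((φ.baseChange B'') ∘ eX) := hb.comp eX.bijective
    have h2 : (eY ∘ ((φ.baseChange B').baseChange B'')) = (φ.baseChange B'') ∘ eX := by
      funext z; exact (h' z).symm
    rw [← h2] at h1
    exact (Function.Bijective.of_comp_iff' eY.bijective _).1 h1

/-- faithfully flat descent of bijectivity -/
theorem bijective_baseChange_iff_of_faithfullyFlat (φ : X →ₗ[B] Y)
    (B' : Type*) [CommRing B'] [Algebra B B'] [Module.FaithfullyFlat B B'] :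
    Function.Bijective (φ.baseChange B') ↔ Function.Bijective φ := by
  refine ⟨fun h => ⟨?_, ?_⟩, fun h => bijective_baseChange φ h B'⟩
  · exact (Module.FaithfullyFlat.lTensor_injective_iff_injective B B' φ).1 h.1
  · exact (Module.FaithfullyFlat.lTensor_surjective_iff_surjective B B' φ).1 h.2

/-- the fibre over a field valued point only depends on the underlying prime -/
theorem bijective_baseChange_field_iff (φ : X →ₗ[B] Y)
    (κ K : Type*) [Field κ] [Algebra B κ] [Field K] [Algebra B K] [Algebra κ K]
    [IsScalarTower B κ K] :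
    Function.Bijective (φ.baseChange K) ↔ Function.Bijective (φ.baseChange κ) := by
  rw [← bijective_baseChange_tower φ κ K]
  exact bijective_baseChange_iff_of_faithfullyFlat _ K

end Fibre

end Fermat.Agent.JPic
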