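import Fermat.Agent.JPic.OpenBij

/-!
# Openness of the locus where a linear map is bijective: main statements
-/

set_option autoImplicit false

namespace Fermat.Agent.JPic

open TensorProduct

variable {B X Y : Type*} [CommRing B] [AddCommGroup X] [Module B X] [AddCommGroup Y] [Module B Y]

/-- a finite module with zero fibre at `p` is killed by some `f ∉ p`. -/
theorem exists_smul_eq_zero_of_fibre (N : Type*) [AddCommGroup N] [Module B N] [Module.Finite B N]
    (p : PrimeSpectrum B) (h : Subsingleton (p.asIdeal.ResidueField ⊗[B] N)) :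
    ∃ f : B, f ∉ p.asIdeal ∧ ∀ x : N, f • x = 0 := by
  have h1 : p ∉ Module.support B N := by
    rw [Module.mem_support_iff_nontrivial_residueField_tensorProduct, not_nontrivial_iff_subsingleton]
    exact h
  rw [Module.mem_support_iff_of_finite] at h1
  obtain ⟨f, hf, hfp⟩ := SetLike.not_le_iff_exists.1 h1
  exact ⟨f, hfp, fun x => Module.mem_annihilator.1 hf x⟩

theorem exists_smul_ker_eq_zero (φ : X →ₗ[B] Y) (hφ : Function.Surjective φ)
    [Module.Projective B Y] (G : Submodule B X) (hG : G.FG) (hk : LinearMap.ker φ ≤ G)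
    (p : PrimeSpectrum B) (hp : Function.Injective (φ.baseChange p.asIdeal.ResidueField)) :
    ∃ f : B, f ∉ p.asIdeal ∧ ∀ x ∈ LinearMap.ker φ, f • x = 0 := by
  have : Module.Finite B (LinearMap.ker φ) :=
    Module.Finite.of_fg (ker_fg_of_le φ hφ G hG hk)
  obtain ⟨s, hs⟩ := Module.projective_lifting_property φ LinearMap.id hφ
  have hs' : ∀ y, φ (s y) = y := fun y => by
    have := LinearMap.congr_fun hs y
    simpa using this
  let π : X →ₗ[B] LinearMap.ker φ := (LinearMap.id - s ∘ₗ φ).codRestrict (LinearMap.ker φ) (by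
    intro x
    simp [hs'])
  have hπ : π ∘ₗ (LinearMap.ker φ).subtype = LinearMap.id := by
    ext ⟨x, hx⟩
    have : φ x = 0 := hx
    simp [π, this]
  set κ := p.asIdeal.ResidueField
  have h1 : Subsingleton (κ ⊗[B] LinearMap.ker φ) := by
    have hz : ∀ z : κ ⊗[B] LinearMap.ker φ, ((LinearMap.ker φ).subtype.baseChange κ) z = 0 := by
      intro z
      apply hp
      rw [map_zero, ← LinearMap.comp_apply, ← LinearMap.baseChange_comp]
      have : φ ∘ₗ (LinearMap.ker φ).subtype = 0 := by
        ext ⟨x, hx⟩
        exact hx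
      rw [this, LinearMap.baseChange_zero, LinearMap.zero_apply]
    refine ⟨fun a b => ?_⟩
    have h2 : ∀ z : κ ⊗[B] LinearMap.ker φ, z = 0 := by
      intro z
      have h3 : (π.baseChange κ) (((LinearMap.ker φ).subtype.baseChange κ) z) = z := by
        rw [← LinearMap.comp_apply, ← LinearMap.baseChange_comp, hπ, LinearMap.baseChange_id]
        rfl
      rw [← h3, hz z, map_zero]
    rw [h2 a, h2 b]
  obtain ⟨f, hf, h2⟩ := exists_smul_eq_zero_of_fibre (B := B) (LinearMap.ker φ) p h1
  refine ⟨f, hf, fun x hx => ?_⟩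
  have := h2 ⟨x, hx⟩
  simpa using congrArg Subtype.val this

theorem exists_smul_mem_range (φ : X →ₗ[B] Y) [Module.Finite B (Y ⧸ LinearMap.range φ)]
    (p : PrimeSpectrum B) (hp : Function.Surjective (φ.baseChange p.asIdeal.ResidueField)) :
    ∃ f : B, f ∉ p.asIdeal ∧ ∀ y, f • y ∈ LinearMap.range φ := by
  set κ := p.asIdeal.ResidueField
  have h1 : Subsingleton (κ ⊗[B] (Y ⧸ LinearMap.range φ)) := by
    have h2 : ∀ z : κ ⊗[B] (Y ⧸ LinearMap.range φ), z = 0 := by
      intro z
      obtain ⟨w, rfl⟩ := LinearMap.lTensor_surjective κ (Submodule.mkQ_surjective (LinearMap.range φ)) z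
      obtain ⟨v, rfl⟩ := hp w
      have h3 : (LinearMap.range φ).mkQ ∘ₗ φ = 0 := by
        ext x
        simp
      have h4 : ((LinearMap.range φ).mkQ.baseChange κ) ((φ.baseChange κ) v) = 0 := by
        rw [← LinearMap.comp_apply, ← LinearMap.baseChange_comp, h3, LinearMap.baseChange_zero,
          LinearMap.zero_apply]
      exact h4
    exact ⟨fun a b => by rw [h2 a, h2 b]⟩
  obtain ⟨f, hf, h2⟩ := exists_smul_eq_zero_of_fibre (B := B) (Y ⧸ LinearMap.range φ) p h1
  refine ⟨f, hf, fun y => ?_⟩
  have := h2 (Submodule.Quotient.mk y)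
  rwa [← Submodule.Quotient.mk_smul, Submodule.Quotient.mk_eq_zero] at this

/-- the fibre at a field valued point `B → K` is the fibre at its kernel. -/
theorem bijective_residueField_iff (φ : X →ₗ[B] Y) (K : Type*) [Field K] [Algebra B K]
    (p : PrimeSpectrum B) (hp : p.asIdeal = RingHom.ker (algebraMap B K)) :
    Function.Bijective (φ.baseChange K) ↔
      Function.Bijective (φ.baseChange p.asIdeal.ResidueField) := by
  let m : p.asIdeal.ResidueField →+* (⊥ : Ideal K).ResidueField :=
    Ideal.ResidueField.map p.asIdeal (⊥ : Ideal K) (algebraMap B K) hp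
  letI : Algebra p.asIdeal.ResidueField (⊥ : Ideal K).ResidueField := m.toAlgebra
  haveI : IsScalarTower B p.asIdeal.ResidueField (⊥ : Ideal K).ResidueField := by
    refine IsScalarTower.of_algebraMap_eq fun x => ?_
    rw [RingHom.algebraMap_toAlgebra]
    refine Eq.trans ?_ (Ideal.ResidueField.map_algebraMap p.asIdeal (⊥ : Ideal K)
      (algebraMap B K) hp x).symm
    rw [IsScalarTower.algebraMap_apply B K (⊥ : Ideal K).ResidueField]
  rw [← bijective_baseChange_field_iff φ p.asIdeal.ResidueField (⊥ : Ideal K).ResidueField,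
    ← bijective_baseChange_field_iff φ K (⊥ : Ideal K).ResidueField]

theorem range_baseChange_subtype_le (G : Submodule B X) (B' : Type*) [CommRing B'] [Algebra B B']
    (w : B' ⊗[B] G) : (G.subtype.baseChange B') w ∈ G.baseChange B' := by
  induction w using TensorProduct.induction_on with
  | zero => simp
  | tmul b x =>
    rw [LinearMap.baseChange_tmul]
    exact Submodule.tmul_mem_baseChange_of_mem _ x.2
  | add u v hu hv => rw [map_add]; exact add_mem hu hv

theorem fg_baseChange (G : Submodule B X) (hG : G.FG) (B' : Type*) [CommRing B'] [Algebra B B'] :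
    (G.baseChange B').FG := by
  obtain ⟨S, rfl⟩ := hG
  classical
  refine ⟨S.image (fun x => (1 : B') ⊗ₜ[B] x), ?_⟩
  rw [Submodule.baseChange_span, Finset.coe_image]
  rfl

theorem ker_baseChange_flat_le (φ : X →ₗ[B] Y) (G : Submodule B X) (hk : LinearMap.ker φ ≤ G)
    (B' : Type*) [CommRing B'] [Algebra B B'] [Module.Flat B B'] :
    LinearMap.ker (φ.baseChange B') ≤ G.baseChange B' := by
  intro z hz
  have hex : Function.Exact (LinearMap.ker φ).subtype φ := LinearMap.exact_subtype_ker_map φ
  have := Module.Flat.lTensor_exact B' hex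
  obtain ⟨w, hw⟩ := (this z).1 hz
  have h1 := range_baseChange_subtype_le (LinearMap.ker φ) B' w
  have h2 : (LinearMap.ker φ).baseChange B' ≤ G.baseChange B' := by
    rw [Submodule.baseChange_eq_span, Submodule.baseChange_eq_span]
    exact Submodule.span_mono (Submodule.map_mono hk)
  apply h2
  have h3 : ((LinearMap.ker φ).subtype.baseChange B') w = z := hw
  rwa [h3] at h1

/-- **Openness.**  `φ : X → Y` linear, `Y` projective, finite cokernel, kernel bounded.  If the
fibre at `p` is bijective there is `f ∉ p` such that `φ` is bijective over every `B`-algebra in which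
`f` is invertible. -/
theorem exists_bijective_baseChange (φ : X →ₗ[B] Y) [Module.Projective B Y]
    [Module.Finite B (Y ⧸ LinearMap.range φ)]
    (G : Submodule B X) (hG : G.FG) (hk : LinearMap.ker φ ≤ G)
    (p : PrimeSpectrum B) (hp : Function.Bijective (φ.baseChange p.asIdeal.ResidueField)) :
    ∃ f : B, f ∉ p.asIdeal ∧ ∀ (B' : Type*) [CommRing B'] [Algebra B B'],
      IsUnit (algebraMap B B' f) → Function.Bijective (φ.baseChange B') := by
  obtain ⟨f₁, hf₁, hc⟩ := exists_smul_mem_range φ p hp.2
  let B₁ := Localization.Away f₁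
  have hu₁ : IsUnit (algebraMap B B₁ f₁) := IsLocalization.Away.algebraMap_isUnit f₁
  have hs₁ : Function.Surjective (φ.baseChange B₁) :=
    surjective_baseChange_of_smul_mem φ f₁ hc B₁ hu₁
  have hdisj : Disjoint (Submonoid.powers f₁ : Set B) (p.asIdeal : Set B) := by
    rw [Set.disjoint_left]
    rintro _ ⟨n, rfl⟩ hn
    exact hf₁ (p.isPrime.mem_of_pow_mem n hn)
  -- the prime of `B₁`
  let p₁ : PrimeSpectrum B₁ := ⟨p.asIdeal.map (algebraMap B B₁),
    (IsLocalization.isPrime_of_isPrime_disjoint (Submonoid.powers f₁) B₁ p.asIdeal p.isPrime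
      hdisj)⟩
  have hcomap : p₁.asIdeal.comap (algebraMap B B₁) = p.asIdeal :=
    IsLocalization.under_map_of_isPrime_disjoint (Submonoid.powers f₁) B₁ p.isPrime hdisj
  -- the kernel is still bounded
  have hk₁ : LinearMap.ker (φ.baseChange B₁) ≤ G.baseChange B₁ := ker_baseChange_flat_le φ G hk B₁
  have hG₁ : (G.baseChange B₁).FG := fg_baseChange G hG B₁
  haveI : p₁.asIdeal.IsPrime := p₁.isPrime
  have hp₁ : Function.Bijective ((φ.baseChange B₁).baseChange p₁.asIdeal.ResidueField) := by
    rw [bijective_baseChange_tower, bijective_residueField_iff φ p₁.asIdeal.ResidueField p ?_]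
    · exact hp
    · rw [IsScalarTower.algebraMap_eq B B₁ p₁.asIdeal.ResidueField, ← RingHom.comap_ker,
        Ideal.ker_algebraMap_residueField, hcomap]
  obtain ⟨g, hg, hker⟩ := exists_smul_ker_eq_zero (φ.baseChange B₁) hs₁ (G.baseChange B₁) hG₁ hk₁
    p₁ hp₁.1
  -- clear denominators of `g`
  obtain ⟨⟨a, s⟩, has⟩ := IsLocalization.surj (Submonoid.powers f₁) g
  obtain ⟨n, hn⟩ := s.2
  have ha : a ∉ p.asIdeal := by
    intro ha
    apply hg
    have h1 : algebraMap B B₁ a ∈ p₁.asIdeal := Ideal.mem_map_of_mem _ ha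
    rw [← has] at h1
    refine (p₁.isPrime.mem_or_mem h1).resolve_right fun h2 => ?_
    have h3 : (s : B) ∈ p₁.asIdeal.comap (algebraMap B B₁) := h2
    rw [hcomap, ← hn] at h3
    exact hf₁ (p.isPrime.mem_of_pow_mem n h3)
  refine ⟨f₁ * a, fun h => ?_, ?_⟩
  · rcases p.isPrime.mem_or_mem h with h | h
    · exact hf₁ h
    · exact ha h
  · intro B' _ _ hu
    rw [map_mul] at hu
    have hu₁' : IsUnit (algebraMap B B' f₁) := isUnit_of_mul_isUnit_left hu
    have hua : IsUnit (algebraMap B B' a) := isUnit_of_mul_isUnit_right hu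
    let ψ : B₁ →+* B' := IsLocalization.Away.lift f₁ hu₁'
    letI : Algebra B₁ B' := ψ.toAlgebra
    haveI : IsScalarTower B B₁ B' := IsScalarTower.of_algebraMap_eq fun x => by
      rw [RingHom.algebraMap_toAlgebra]
      exact (IsLocalization.Away.lift_eq f₁ hu₁' x).symm
    rw [← bijective_baseChange_tower φ B₁ B']
    refine bijective_baseChange_of_smul_ker (φ.baseChange B₁) hs₁ g hker B' ?_
    have h4 : algebraMap B₁ B' g * algebraMap B₁ B' (algebraMap B B₁ s) =
        algebraMap B₁ B' (algebraMap B B₁ a) := by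
      rw [← map_mul, has]
    rw [← IsScalarTower.algebraMap_apply, ← IsScalarTower.algebraMap_apply] at h4
    rw [← h4] at hua
    exact isUnit_of_mul_isUnit_left hua

/-- if all fibres are bijective then `φ` is bijective. -/
theorem bijective_of_fibres (φ : X →ₗ[B] Y) [Module.Projective B Y]
    [Module.Finite B (Y ⧸ LinearMap.range φ)]
    (G : Submodule B X) (hG : G.FG) (hk : LinearMap.ker φ ≤ G)
    (hp : ∀ p : PrimeSpectrum B, Function.Bijective (φ.baseChange p.asIdeal.ResidueField)) :
    Function.Bijective φ := by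
  refine bijective_of_isLocalized_maximal
    (fun m _ => Localization.AtPrime m ⊗[B] X)
    (fun m _ => TensorProduct.mk B (Localization.AtPrime m) X 1)
    (fun m _ => Localization.AtPrime m ⊗[B] Y)
    (fun m _ => TensorProduct.mk B (Localization.AtPrime m) Y 1) φ ?_
  intro m hm
  obtain ⟨f, hf, h⟩ := exists_bijective_baseChange φ G hG hk ⟨m, inferInstance⟩ (hp _)
  have h1 : Function.Bijective (φ.baseChange (Localization.AtPrime m)) :=
    h (Localization.AtPrime m) (IsLocalization.map_units (Localization.AtPrime m)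
      (⟨f, hf⟩ : m.primeCompl))
  have h2 : IsLocalizedModule.map m.primeCompl (TensorProduct.mk B (Localization.AtPrime m) X 1)
      (TensorProduct.mk B (Localization.AtPrime m) Y 1) φ =
      (φ.baseChange (Localization.AtPrime m)).restrictScalars B := by
    apply IsLocalizedModule.linearMap_ext m.primeCompl
      (TensorProduct.mk B (Localization.AtPrime m) X 1)
      (TensorProduct.mk B (Localization.AtPrime m) Y 1)
    ext x
    have h3 := IsLocalizedModule.map_apply m.primeCompl
      (TensorProduct.mk B (Localization.AtPrime m) X 1)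
      (TensorProduct.mk B (Localization.AtPrime m) Y 1) φ x
    refine h3.trans ?_
    simp
  rw [h2]
  exact h1

end Fermat.Agent.JPic
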