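import Mathlib

/-!
# A lattice `M0 ≤ M`, finite projective over `S0`, is a summand of `S0^n ≤ S^n`, `S = S0[1/t]`.
-/

set_option autoImplicit false

namespace Fermat.Agent.JPic

section

variable {S0 S M : Type*} [CommRing S0] [CommRing S] [Algebra S0 S]
  [AddCommGroup M] [Module S0 M] [Module S M] [IsScalarTower S0 S M]

theorem isLocalizedModule_subtype (t : S0) [IsLocalization.Away t S] (M0 : Submodule S0 M)
    (ex : ∀ m : M, ∃ n : ℕ, t ^ n • m ∈ M0) :
    IsLocalizedModule (Submonoid.powers t) M0.subtype where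
  map_units := by
    rintro ⟨_, n, rfl⟩
    have hu : IsUnit (algebraMap S0 S (t ^ n)) :=
      IsLocalization.map_units S (⟨t ^ n, n, rfl⟩ : Submonoid.powers t)
    obtain ⟨v, hv⟩ := hu
    rw [Module.End.isUnit_iff]
    constructor
    · intro x y hxy
      have h1 : (t ^ n) • x = (t ^ n) • y := hxy
      rw [← algebraMap_smul S, ← algebraMap_smul S (t ^ n) y, ← hv] at h1
      have := congrArg (fun z => (v⁻¹ : Sˣ) • z) h1
      simpa [Units.smul_def, ← mul_smul] using this
    · intro y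
      refine ⟨((v⁻¹ : Sˣ) : S) • y, ?_⟩
      show (t ^ n) • (((v⁻¹ : Sˣ) : S) • y) = y
      rw [← algebraMap_smul S, ← hv, ← mul_smul, Units.mul_inv, one_smul]
  surj := fun y => by
    obtain ⟨n, hn⟩ := ex y
    exact ⟨(⟨_, hn⟩, ⟨t ^ n, n, rfl⟩), rfl⟩
  exists_of_eq := fun {x y} h => ⟨1, by rw [Subtype.ext h]⟩

theorem exists_dual (t : S0) [IsLocalization.Away t S] (M0 : Submodule S0 M)
    (ex : ∀ m : M, ∃ n : ℕ, t ^ n • m ∈ M0) [Module.Finite S0 M0] [Module.Projective S0 M0] :
    ∃ (n : ℕ) (j : M →ₗ[S] (Fin n → S)) (q : (Fin n → S) →ₗ[S] M),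
      (∀ m, q (j m) = m) ∧ (∀ m ∈ M0, ∀ i, ∃ s : S0, j m i = algebraMap S0 S s) ∧
      (∀ s : Fin n → S, (∀ i, ∃ s0 : S0, s i = algebraMap S0 S s0) → q s ∈ M0) := by
  obtain ⟨n, f, g, -, -, hfg⟩ := Module.Finite.exists_comp_eq_id_of_projective S0 M0
  haveI := isLocalizedModule_subtype (S := S) t M0 ex
  let T := Submonoid.powers t
  let jj : ∀ i : Fin n, M →ₗ[S0] S := fun i =>
    IsLocalizedModule.map T M0.subtype (Algebra.linearMap S0 S) (LinearMap.proj i ∘ₗ g)
  let j : M →ₗ[S] (Fin n → S) := LinearMap.pi fun i => (jj i).extendScalarsOfIsLocalization T S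
  let q : (Fin n → S) →ₗ[S] M := Fintype.linearCombination S (fun i => (f (Pi.single i 1) : M))
  have hj : ∀ (m : M0) (i : Fin n), j m i = algebraMap S0 S (g m i) := by
    intro m i
    have := IsLocalizedModule.map_apply T M0.subtype (Algebra.linearMap S0 S)
      (LinearMap.proj i ∘ₗ g) m
    exact this
  have hq : ∀ s : Fin n → S0, q (fun i => algebraMap S0 S (s i)) = f s := by
    intro s
    simp only [q, Fintype.linearCombination_apply, algebraMap_smul]
    conv_rhs => rw [← Finset.univ_sum_single s, map_sum]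
    rw [AddSubmonoidClass.coe_finsetSum]
    refine Finset.sum_congr rfl fun i _ => ?_
    rw [← Submodule.coe_smul, ← map_smul]
    congr 2
    ext l
    simp [Pi.single_apply]
  refine ⟨n, j, q, ?_, ?_, ?_⟩
  · intro m
    obtain ⟨N, hN⟩ := ex m
    have hu : IsUnit (algebraMap S0 S (t ^ N)) :=
      IsLocalization.map_units S (⟨t ^ N, N, rfl⟩ : Submonoid.powers t)
    obtain ⟨v, hv⟩ := hu
    have h1 : q (j (t ^ N • m)) = t ^ N • m := by
      have h2 : j (t ^ N • m) = fun i => algebraMap S0 S (g ⟨_, hN⟩ i) := by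
        funext i
        exact hj ⟨_, hN⟩ i
      rw [h2, hq]
      have h3 := LinearMap.congr_fun hfg ⟨_, hN⟩
      exact congrArg Subtype.val h3
    rw [← algebraMap_smul S, map_smul, map_smul, ← hv] at h1
    have := congrArg (fun z => ((v⁻¹ : Sˣ) : S) • z) h1
    simpa [← mul_smul] using this
  · intro m hm i
    exact ⟨_, hj ⟨m, hm⟩ i⟩
  · intro s hs
    choose s0 hs0 using hs
    have : s = fun i => algebraMap S0 S (s0 i) := funext hs0
    rw [this, hq]
    exact (f s0).2

end

end Fermat.Agent.JPic
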