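import Fermat.Agent.JPic.Summand

/-!
# `B ⊗ A` is the localisation of `B ⊗ A0` at `t`
-/

set_option autoImplicit false

open TensorProduct

namespace Fermat.Agent.JPic

variable {k : Type*} (B : Type*) {A : Type*} [Field k] [CommRing B] [Algebra k B] [CommRing A]
  [Algebra k A] (A0 : Subalgebra k A)

/-- `B ⊗ A0 → B ⊗ A` -/
noncomputable def incl : (B ⊗[k] A0) →ₐ[B] (B ⊗[k] A) :=
  Algebra.TensorProduct.map (AlgHom.id B B) A0.val

@[simp] theorem incl_tmul (b : B) (a : A0) : incl B A0 (b ⊗ₜ a) = b ⊗ₜ (a : A) := rfl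

theorem incl_eq_lTensor (z : B ⊗[k] A0) : (A0.val.toLinearMap).lTensor B z = incl B A0 z := by
  induction z using TensorProduct.induction_on with
  | zero => simp
  | tmul b a => rfl
  | add u v hu hv => rw [map_add, map_add, hu, hv]

theorem incl_injective : Function.Injective (incl B A0) := by
  have h : Function.Injective ((A0.val.toLinearMap).lTensor B) :=
    Module.Flat.lTensor_preserves_injective_linearMap _ Subtype.val_injective
  intro x y hxy
  apply h
  rw [incl_eq_lTensor, incl_eq_lTensor, hxy]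

/-- the algebra structure of `B ⊗ A` over `B ⊗ A0` -/
@[reducible] noncomputable def inclAlgebra : Algebra (B ⊗[k] A0) (B ⊗[k] A) :=
  (incl B A0).toRingHom.toAlgebra

theorem isLocalization_incl (u : A0) (v : A) (huv : (u : A) * v = 1)
    (ex : ∀ a : A, ∃ n : ℕ, (u : A) ^ n * a ∈ A0) :
    letI := inclAlgebra B A0
    IsLocalization.Away ((1 : B) ⊗ₜ[k] u) (B ⊗[k] A) := by
  let _ := inclAlgebra B A0
  have hmap : ∀ z, algebraMap (B ⊗[k] A0) (B ⊗[k] A) z = incl B A0 z := fun _ => rfl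
  refine ⟨?_, ?_, ?_⟩
  · rintro ⟨_, n, rfl⟩
    rw [hmap, map_pow]
    refine IsUnit.pow n ?_
    rw [incl_tmul]
    refine IsUnit.of_mul_eq_one ((1 : B) ⊗ₜ[k] v) ?_
    rw [Algebra.TensorProduct.tmul_mul_tmul, huv, one_mul, Algebra.TensorProduct.one_def]
  · intro z
    have key : ∃ (n : ℕ) (s : B ⊗[k] A0), z * ((1 : B) ⊗ₜ[k] (u : A)) ^ n = incl B A0 s := by
      induction z using TensorProduct.induction_on with
      | zero => exact ⟨0, 0, by rw [map_zero, zero_mul]⟩
      | tmul b a =>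
        obtain ⟨n, hn⟩ := ex a
        refine ⟨n, b ⊗ₜ ⟨_, hn⟩, ?_⟩
        rw [incl_tmul, Algebra.TensorProduct.tmul_pow, Algebra.TensorProduct.tmul_mul_tmul,
          one_pow, mul_one, mul_comm]
      | add x y hx hy =>
        obtain ⟨n, s, hs⟩ := hx
        obtain ⟨m, r, hr⟩ := hy
        refine ⟨n + m, s * ((1 : B) ⊗ₜ[k] u) ^ m + r * ((1 : B) ⊗ₜ[k] u) ^ n, ?_⟩
        rw [map_add, map_mul, map_mul, map_pow, map_pow, incl_tmul, ← hs, ← hr]
        ring
    obtain ⟨n, s, hs⟩ := key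
    refine ⟨(s, ⟨((1 : B) ⊗ₜ[k] u) ^ n, n, rfl⟩), ?_⟩
    rw [hmap, hmap, map_pow, incl_tmul]
    exact hs
  · intro x y hxy
    exact ⟨1, by rw [incl_injective B A0 hxy]⟩

end Fermat.Agent.JPic
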