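import Fermat.Agent.JPic.Acyc
import Fermat.Agent.JF.LD

/-!
# `W = M0 ∩ t M1` is a finite projective `B`-module if `L` is acyclic
-/

set_option autoImplicit false

universe u

open TensorProduct

namespace Fermat.Agent.JPic

open Fermat.Agent.JPC

variable {k : Type u} [Field k] {X : TwoChart k} {B : Type u} [CommRing B] [Algebra k B]
  (L : PreLD X B)

/-- all twists have bounded `H⁰` -/
theorem exists_fg_H0z (hL : L.IsLine) (z : ℤ) : ∃ G : Submodule B L.M, G.FG ∧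
    ∀ x ∈ L.M0, ((X.t ^ (-z) : X.Aˣ) : X.A) • x ∈ L.M1 → x ∈ G := by
  classical
  obtain ⟨n, j, q, hqj, hj, -⟩ := exists_dual0 L hL
  obtain ⟨n1, j1, q1, hqj1, hj1, -⟩ := exists_dual1 L hL
  let y : Fin n1 → L.M := fun l => ((X.t ^ z : X.Aˣ) : X.A) • q1 (Pi.single l 1)
  have hN : ∃ N : ℕ, ∀ (l : Fin n1) (i : Fin n), j (y l) i ∈ (tA1 X N).baseChange B := by
    choose N hN using fun (p : Fin n1 × Fin n) => exists_mem_tA1_bc (j (y p.1) p.2)
    refine ⟨Finset.univ.sup N, fun l i => baseChange_mono' _ _ (tA1_mono X ?_) (hN (l, i))⟩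
    exact_mod_cast Finset.le_sup (f := N) (Finset.mem_univ (l, i))
  obtain ⟨N, hN⟩ := hN
  let H : Submodule B (B ⊗[k] X.A) := (Subalgebra.toSubmodule X.A0 ⊓ tA1 X N).baseChange B
  have hH : H.FG := fg_baseChange _ (H0_fg X N) B
  refine ⟨(Submodule.pi Set.univ fun _ : Fin n => H).map (q.restrictScalars B),
    (Submodule.fg_pi fun _ => hH).map _, ?_⟩
  intro x hx0 hx1
  refine ⟨j x, ?_, hqj x⟩
  intro i _
  apply inf_baseChange_le
  refine ⟨?_, ?_⟩
  · obtain ⟨s, hs⟩ := hj x hx0 i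
    rw [hs]
    exact incl_mem X.A0 s
  · obtain ⟨x', hx'⟩ : ∃ x' : L.M, x' = ((X.t ^ (-z) : X.Aˣ) : X.A) • x := ⟨_, rfl⟩
    rw [← hx'] at hx1
    have hxx' : x = ((1 : B) ⊗ₜ[k] ((X.t ^ z : X.Aˣ) : X.A)) • x' := by
      rw [hx', PreLD.tmul_smul, one_smul, ← mul_smul, ← Units.val_mul, ← zpow_add,
        add_neg_cancel, zpow_zero, Units.val_one, one_smul]
    have h1 : j x i = ∑ l, j1 x' l * j (y l) i := by
      conv_lhs => rw [hxx', map_smul, ← hqj1 x', q_eq_sum q1 (j1 x'), map_sum, Pi.smul_apply,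
        Finset.sum_apply, smul_eq_mul, Finset.mul_sum]
      refine Finset.sum_congr rfl fun l _ => ?_
      have h2 : y l = ((1 : B) ⊗ₜ[k] ((X.t ^ z : X.Aˣ) : X.A)) • q1 (Pi.single l 1) := by
        rw [PreLD.tmul_smul, one_smul]
      rw [h2, map_smul, map_smul, Pi.smul_apply, Pi.smul_apply, smul_eq_mul, smul_eq_mul,
        mul_left_comm]
    rw [h1]
    refine Submodule.sum_mem _ fun l _ => ?_
    obtain ⟨s, hs⟩ := hj1 x' hx1 l
    rw [hs]
    exact incl_mul_mem N s _ (hN l i)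

theorem exists_fg_W (hL : L.IsLine) : ∃ G : Submodule B L.M, G.FG ∧ L.W ≤ G := by
  obtain ⟨G, hG, h⟩ := exists_fg_H0z L hL 1
  refine ⟨G, hG, fun x hx => h x (JF.mem_W.1 hx).1 ?_⟩
  have := (JF.mem_W.1 hx).2
  rwa [zpow_neg, zpow_one]

/-- the projection `M → W` -/
theorem exists_retW (hc : L.Acyclic) : ∃ r : L.M →ₗ[B] L.W, ∀ w : L.W, r w = w :=
  ⟨JF.cf L hc 0, fun w => JF.cf_zero_W L hc w⟩

theorem finite_W (hL : L.IsLine) (hc : L.Acyclic) : Module.Finite B L.W := by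
  obtain ⟨G, hG, hle⟩ := exists_fg_W L hL
  obtain ⟨r, hr⟩ := exists_retW L hc
  have h1 : G.map r = ⊤ := by
    rw [eq_top_iff]
    intro w _
    exact ⟨w, hle w.2, hr w⟩
  exact ⟨h1 ▸ hG.map r⟩

theorem projective_W (hL : L.IsLine) (hc : L.Acyclic) : Module.Projective B L.W := by
  haveI := projM L hL
  obtain ⟨r, hr⟩ := exists_retW L hc
  exact Module.Projective.of_split L.W.subtype r (by
    ext w
    exact congrArg Subtype.val (hr w))

end Fermat.Agent.JPic
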